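import Fermat.Agent.S59.LoSqC.H193.LabelInj
import Fermat.Agent.S36.H630.ChartChange
import Fermat.Agent.S36.H193.QepAll

/-!
# S59 / cell (C) LO-SQ, leaf LAB (helper193), part 4: LAB1-INJ for TWO sheets (level `Mq`)

Setting of the label wall, with exactly two sheets `V₁ ≠ V₂` (the two components of the special
fibre of the model of `X₀(Mq)`), `V₁` unramified and discrete.  `u ≡ 1` on both sheets, with a
purity datum at every closed point of the special fibre of the two charts.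

* `isLabelAt_self`       : purity + normality along `V` ⟹ the label of the pair `(V, V)` is `0`;
* `IsPureAt.of_back`, `IsLabelAt.of_back` : change of chart;
* `exists_passThrough`   : every closed point of the special fibre lies on a sheet;
* `exists_pow_eq_of_const_labels` (**LAB1-INJ**) : if the labels of `u` at all NODES of the finite
  chart (closed points through which both sheets pass) are equal to one constant `c₀`, and there
  is no node at infinity, then `u` is an `m`-th power.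
-/

set_option autoImplicit false
set_option linter.unusedSectionVars false
set_option linter.unusedVariables false
set_option linter.style.haveILetI false

namespace Fermat.Agent.S59.LoSqC.H193

open Fermat.Agent.S36.H630
open Fermat.Agent.S18.H138 (chart)
open Fermat.Agent.A2.H12 (IsSheet)
open Polynomial

universe u

section Self

variable {R : Type*} [CommRing R] {F : Type*} [Field F] [Algebra R F]
variable {B : Subalgebra R F} {n : Ideal B}

/-- The label of the pair `(V, V)` is `0`. -/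
theorem isLabelAt_self [hn : n.IsMaximal] {m : ℕ} (hm : 0 < m)
    (hrat : ∀ b : B, ∃ r : R, b - algebraMap R B r ∈ n)
    {V : ValuationSubring F} (hBV : ChartLe B V) (hth : PassThrough B n V)
    (hnormal : NormalAlong B V m) {ζ : R} {u d : F} (hu : u - 1 ∈ V.nonunits)
    (hp : IsPureAt B n m u d) : IsLabelAt B n V V m ζ u 0 := by
  obtain ⟨hd, a₀, s₀, ha₀, hs₀, hpure⟩ := hp
  obtain ⟨η, hη, hv⟩ := exists_valAt_of_pure hrat hBV hth hm hnormal hu ha₀ hs₀ hpure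
  refine ⟨d, η, η, ⟨hd, a₀, s₀, ha₀, hs₀, hpure⟩, hη, hv, hv, ?_⟩
  rw [pow_zero, mul_one, sub_self, map_zero]
  exact n.zero_mem

end Self

section Back

variable {R : Type*} [CommRing R] {F : Type*} [Field F] [Algebra R F]
variable {B B' : Subalgebra R F} {n' : Ideal B'} {y : F}
variable (hy : y ∈ B') (hclear : ∀ b : B, ∃ k : ℕ, y ^ k * (b : F) ∈ B')

/-- **A purity datum passes to the other chart.** -/
theorem IsPureAt.of_back [hn' : n'.IsPrime] (hyn : (⟨y, hy⟩ : B') ∉ n') {m : ℕ} {u d : F}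
    (h : IsPureAt B (backIdeal B n' y hy hclear) m u d) : IsPureAt B' n' m u d := by
  obtain ⟨hd, a₀, s₀, ha₀, hs₀, hpure⟩ := h
  obtain ⟨k, hka, hks⟩ := exists_clear₂ hy hclear a₀ s₀
  refine ⟨hd, ⟨_, hka⟩, ⟨_, hks⟩, ?_, ?_, ?_⟩
  · intro h1
    exact ha₀ ((mem_backIdeal_iff hy hclear hyn a₀ k hka).2 h1)
  · intro h1
    exact hs₀ ((mem_backIdeal_iff hy hclear hyn s₀ k hks).2 h1)
  · show u * d ^ m * (y ^ k * (s₀ : F)) = y ^ k * (a₀ : F)
    rw [← hpure]
    ring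

/-- **A label passes to the other chart.** -/
theorem IsLabelAt.of_back [hn' : n'.IsPrime] (hyn : (⟨y, hy⟩ : B') ∉ n')
    {V V' : ValuationSubring F} (hyV : y ∈ V) (hyV' : y ∈ V') {m : ℕ} {ζ : R} {u : F} {c : ℕ}
    (h : IsLabelAt B (backIdeal B n' y hy hclear) V V' m ζ u c) :
    IsLabelAt B' n' V V' m ζ u c := by
  obtain ⟨d, η, η', hp, hη, hv, hv', hl⟩ := h
  refine ⟨d, η, η', hp.of_back hy hclear hyn, ?_, hv.of_back hy hclear hyn hyV,
    hv'.of_back hy hclear hyn hyV', ?_⟩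
  · intro h1
    exact hη ((algebraMap_mem_backIdeal_iff hy hclear hyn η).2 h1)
  · exact (algebraMap_mem_backIdeal_iff hy hclear hyn _).1 hl

end Back

section Cover

variable {R : Type u} [CommRing R] [IsDomain R] {F : Type u} [Field F] [Algebra R F]
variable [IsNoetherianRing R] [IsIntegrallyClosed R[X]] [CharZero F]

/-- **Every closed point of the special fibre of the finite chart lies on a sheet.** -/
theorem exists_passThrough (w : R) (hw : Prime w) {x : F} (hx : Transcendental R x)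
    (𝔫 : Ideal (chart R ({x} : Set F))) (h𝔫 : 𝔫.IsPrime)
    (hw𝔫 : algebraMap R (chart R ({x} : Set F)) w ∈ 𝔫) :
    ∃ V : ValuationSubring F, IsSheet w x V ∧ PassThrough (chart R ({x} : Set F)) 𝔫 V := by
  have hle : Ideal.span {algebraMap R (chart R ({x} : Set F)) w} ≤ 𝔫 := by
    rw [Ideal.span_le, Set.singleton_subset_iff]
    exact hw𝔫
  obtain ⟨p, hp, hp𝔫⟩ := Ideal.exists_minimalPrimes_le hle
  obtain ⟨V, hV, hcentre⟩ := Fermat.Agent.S36.H193.exists_sheet_of_minimal w hw hx p hp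
  exact ⟨V, hV, fun c hc => hp𝔫 ((hcentre c).1 hc)⟩

end Cover

section Two

variable {R : Type u} [CommRing R] [IsDomain R] [IsDiscreteValuationRing R]
  [HenselianLocalRing R] [IsAlgClosed (IsLocalRing.ResidueField R)] [IsIntegrallyClosed R[X]]
variable (E : Type u) [Field E] [CharZero E] [Algebra R E] [IsFractionRing R E]
variable {F : Type u} [Field F] [Algebra E F] [Algebra R F] [IsScalarTower R E F]

include E in
/-- **LAB1-INJ (two sheets).**  If the labels of `u` at all nodes of the finite chart are equal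
to one constant `c₀`, then `u` is an `m`-th power. -/
theorem exists_pow_eq_of_const_labels (w : R) (hw : Irreducible w) (q : ℕ) (hq : q.Prime)
    (hqR : (q : R) ∈ IsLocalRing.maximalIdeal R)
    {x : F} (hx : Transcendental E x)
    (hfin : FiniteDimensional (IntermediateField.adjoin E ({x} : Set F)) F)
    {m : ℕ} (hm : 0 < m) (hqm : ¬ q ∣ m) {ζ : R} (hζ : IsPrimitiveRoot ζ m)
    {u : F} (hu0 : u ≠ 0)
    (V₁ V₂ : ValuationSubring F) (hne : V₁ ≠ V₂)
    (hsheets : ∀ V, IsSheet w x V → V = V₁ ∨ V = V₂)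
    (hR₁ : ∀ r : R, algebraMap R F r ∈ V₁) (hR₂ : ∀ r : R, algebraMap R F r ∈ V₂)
    (hx₁ : x ∈ V₁ ∧ x⁻¹ ∈ V₁) (hx₂ : x ∈ V₂ ∧ x⁻¹ ∈ V₂)
    (hu₁ : u - 1 ∈ V₁.nonunits) (hu₂ : u - 1 ∈ V₂.nonunits)
    (hwV₁ : algebraMap R F w ∈ V₁.nonunits)
    (hunif : ∀ a ∈ V₁.nonunits, a * (algebraMap R F w)⁻¹ ∈ V₁)
    (hdisc : ∀ g : F, ∃ k : ℕ, g * algebraMap R F w ^ k ∈ V₁)
    (hnf₁ : NormalAlong (chart R ({x} : Set F)) V₁ m)
    (hnf₂ : NormalAlong (chart R ({x} : Set F)) V₂ m)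
    (hni₁ : NormalAlong (chart R ({x⁻¹} : Set F)) V₁ m)
    (hni₂ : NormalAlong (chart R ({x⁻¹} : Set F)) V₂ m)
    (hcusp : ∀ 𝔫 : Ideal (chart R ({x⁻¹} : Set F)), 𝔫.IsMaximal →
      algebraMap R (chart R ({x⁻¹} : Set F)) w ∈ 𝔫 →
      (⟨x⁻¹, Fermat.Agent.S18.H138.mem_chart_of_mem rfl⟩ : chart R ({x⁻¹} : Set F)) ∈ 𝔫 →
      ¬ (PassThrough (chart R ({x⁻¹} : Set F)) 𝔫 V₁ ∧
        PassThrough (chart R ({x⁻¹} : Set F)) 𝔫 V₂))
    (hpure_fin : ∀ 𝔫 : Ideal (chart R ({x} : Set F)), 𝔫.IsMaximal →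
      algebraMap R (chart R ({x} : Set F)) w ∈ 𝔫 →
      ∃ d : F, IsPureAt (chart R ({x} : Set F)) 𝔫 m u d)
    (hpure_inf : ∀ 𝔫 : Ideal (chart R ({x⁻¹} : Set F)), 𝔫.IsMaximal →
      algebraMap R (chart R ({x⁻¹} : Set F)) w ∈ 𝔫 →
      ∃ d : F, IsPureAt (chart R ({x⁻¹} : Set F)) 𝔫 m u d)
    (c₀ : ℕ)
    (hlab : ∀ 𝔫 : Ideal (chart R ({x} : Set F)), 𝔫.IsMaximal →
      algebraMap R (chart R ({x} : Set F)) w ∈ 𝔫 →
      PassThrough (chart R ({x} : Set F)) 𝔫 V₁ → PassThrough (chart R ({x} : Set F)) 𝔫 V₂ →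
      IsLabelAt (chart R ({x} : Set F)) 𝔫 V₁ V₂ m ζ u c₀) :
    ∃ g : F, g ^ m = u := by
  classical
  have hinjRE : Function.Injective (algebraMap R E) := IsFractionRing.injective R E
  have hinjRF : Function.Injective (algebraMap R F) := by
    rw [IsScalarTower.algebraMap_eq R E F]
    exact (algebraMap E F).injective.comp hinjRE
  haveI : CharZero F := charZero_of_injective_algebraMap (algebraMap E F).injective
  have hxR : Transcendental R x := hx.restrictScalars hinjRE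
  have hx0 : x ≠ 0 := Fermat.Agent.S18.H138.ne_zero_of_transcendental hxR
  have hxRi : Transcendental R x⁻¹ := Fermat.Agent.S18.H138.transcendental_inv hxR
  have hwp : Prime w := hw.prime
  have hζ1 : ζ ^ m = 1 := hζ.pow_eq_one
  set 𝒱 : Set (ValuationSubring F) := {V | V = V₁ ∨ V = V₂} with h𝒱def
  have hcl_fin₁ : ChartLe (chart R ({x} : Set F)) V₁ :=
    chartLe_chart hR₁ (fun s hs => by rw [Set.mem_singleton_iff.1 hs]; exact hx₁.1)
  have hcl_fin₂ : ChartLe (chart R ({x} : Set F)) V₂ :=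
    chartLe_chart hR₂ (fun s hs => by rw [Set.mem_singleton_iff.1 hs]; exact hx₂.1)
  have hcl_inf₁ : ChartLe (chart R ({x⁻¹} : Set F)) V₁ :=
    chartLe_chart hR₁ (fun s hs => by rw [Set.mem_singleton_iff.1 hs]; exact hx₁.2)
  have hcl_inf₂ : ChartLe (chart R ({x⁻¹} : Set F)) V₂ :=
    chartLe_chart hR₂ (fun s hs => by rw [Set.mem_singleton_iff.1 hs]; exact hx₂.2)
  -- the colouring
  set κ : ValuationSubring F → ℕ := fun V => if V = V₁ then c₀ else 0 with hκ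
  have hκ₁ : κ V₁ = c₀ := by simp [hκ]
  have hκ₂ : κ V₂ = 0 := by
    have : V₂ ≠ V₁ := fun h => hne h.symm
    simp [hκ, this]
  -- the local analysis, common to both charts
  have key : ∀ (y : F) (𝔫 : Ideal (chart R ({y} : Set F))), 𝔫.IsMaximal →
      (∀ b : chart R ({y} : Set F), ∃ r : R, b - algebraMap R (chart R ({y} : Set F)) r ∈ 𝔫) →
      ChartLe (chart R ({y} : Set F)) V₁ → ChartLe (chart R ({y} : Set F)) V₂ →
      NormalAlong (chart R ({y} : Set F)) V₁ m → NormalAlong (chart R ({y} : Set F)) V₂ m →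
      (∃ d : F, IsPureAt (chart R ({y} : Set F)) 𝔫 m u d) →
      (PassThrough (chart R ({y} : Set F)) 𝔫 V₁ ∨ PassThrough (chart R ({y} : Set F)) 𝔫 V₂) →
      (PassThrough (chart R ({y} : Set F)) 𝔫 V₁ → PassThrough (chart R ({y} : Set F)) 𝔫 V₂ →
        IsLabelAt (chart R ({y} : Set F)) 𝔫 V₁ V₂ m ζ u c₀) →
      ∃ V ∈ 𝒱, PassThrough (chart R ({y} : Set F)) 𝔫 V ∧
        ∀ W ∈ 𝒱, PassThrough (chart R ({y} : Set F)) 𝔫 W →
          ∃ c : ℕ, IsLabelAt (chart R ({y} : Set F)) 𝔫 V W m ζ u c ∧ c + κ W ≡ κ V [MOD m] := by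
    intro y 𝔫 h𝔫 hrat hB₁ hB₂ hn₁ hn₂ hpur hcov hnode
    haveI := h𝔫
    obtain ⟨d, hd⟩ := hpur
    by_cases h1 : PassThrough (chart R ({y} : Set F)) 𝔫 V₁
    · refine ⟨V₁, Or.inl rfl, h1, ?_⟩
      rintro W (rfl | rfl) hW
      · exact ⟨0, isLabelAt_self hm hrat hB₁ h1 hn₁ hu₁ hd, by rw [zero_add]⟩
      · refine ⟨c₀, hnode h1 hW, ?_⟩
        rw [hκ₁, hκ₂, add_zero]
    · have h2 : PassThrough (chart R ({y} : Set F)) 𝔫 V₂ := hcov.resolve_left h1
      refine ⟨V₂, Or.inr rfl, h2, ?_⟩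
      rintro W (rfl | rfl) hW
      · exact absurd hW h1
      · exact ⟨0, isLabelAt_self hm hrat hB₂ h2 hn₂ hu₂ hd, by rw [zero_add]⟩
  refine exists_pow_eq_of_labels E w hw q hq hqR hx hfin hm hqm hζ hu0 𝒱
    (fun V hV => hsheets V hV) ?_ ?_ ?_ V₁ hR₁ hwV₁ hu₁ hunif hdisc κ ?_ ?_
  · rintro V (rfl | rfl)
    · exact hR₁
    · exact hR₂
  · rintro V (rfl | rfl)
    · exact hx₁
    · exact hx₂
  · rintro V (rfl | rfl)
    · exact hu₁
    · exact hu₂
  · -- the finite chart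
    intro 𝔫 h𝔫 hw𝔫
    haveI := h𝔫
    have hcov : PassThrough (chart R ({x} : Set F)) 𝔫 V₁ ∨
        PassThrough (chart R ({x} : Set F)) 𝔫 V₂ := by
      obtain ⟨V, hV, hth⟩ := exists_passThrough w hwp hxR 𝔫 h𝔫.isPrime hw𝔫
      rcases hsheets V hV with rfl | rfl
      · exact Or.inl hth
      · exact Or.inr hth
    exact key x 𝔫 h𝔫 (rat_of_mem w hw x 𝔫 h𝔫 hw𝔫) hcl_fin₁ hcl_fin₂ hnf₁ hnf₂
      (hpure_fin 𝔫 h𝔫 hw𝔫) hcov (hlab 𝔫 h𝔫 hw𝔫)
  · -- the chart at infinity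
    intro 𝔫' h𝔫' hw𝔫'
    haveI := h𝔫'
    have hn'p : 𝔫'.IsPrime := h𝔫'.isPrime
    have hrat' := rat_of_mem w hw x⁻¹ 𝔫' h𝔫' hw𝔫'
    have h𝔪n' : ∀ r ∈ IsLocalRing.maximalIdeal R,
        algebraMap R (chart R ({x⁻¹} : Set F)) r ∈ 𝔫' := by
      intro r hr
      rw [hw.maximalIdeal_eq, Ideal.mem_span_singleton] at hr
      obtain ⟨t, rfl⟩ := hr
      rw [map_mul]
      exact 𝔫'.mul_mem_right _ hw𝔫'
    have hcov : PassThrough (chart R ({x⁻¹} : Set F)) 𝔫' V₁ ∨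
        PassThrough (chart R ({x⁻¹} : Set F)) 𝔫' V₂ := by
      obtain ⟨V, hV, hth⟩ := exists_passThrough w hwp hxRi 𝔫' hn'p hw𝔫'
      rcases hsheets V ((Fermat.Agent.S36.H193.isSheet_inv_iff w hx0 V).1 hV) with rfl | rfl
      · exact Or.inl hth
      · exact Or.inr hth
    refine key x⁻¹ 𝔫' h𝔫' hrat' hcl_inf₁ hcl_inf₂ hni₁ hni₂ (hpure_inf 𝔫' h𝔫' hw𝔫') hcov ?_
    intro h1 h2
    have hyB' : x⁻¹ ∈ chart R ({x⁻¹} : Set F) := Fermat.Agent.S18.H138.mem_chart_of_mem rfl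
    by_cases hy : (⟨x⁻¹, hyB'⟩ : chart R ({x⁻¹} : Set F)) ∈ 𝔫'
    · exact absurd ⟨h1, h2⟩ (hcusp 𝔫' h𝔫' hw𝔫' hy)
    · have hclear : ∀ b : chart R ({x} : Set F),
          ∃ k : ℕ, x⁻¹ ^ k * (b : F) ∈ chart R ({x⁻¹} : Set F) :=
        fun b => Fermat.Agent.S18.H138.exists_inv_pow_mul_mem_chart hx0 b.2
      have hnmax : (backIdeal (chart R ({x} : Set F)) 𝔫' x⁻¹ hyB' hclear).IsMaximal :=
        backIdeal_isMaximal hyB' hclear hy h𝔪n' hrat'
      have hwn : algebraMap R (chart R ({x} : Set F)) w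
          ∈ backIdeal (chart R ({x} : Set F)) 𝔫' x⁻¹ hyB' hclear :=
        (algebraMap_mem_backIdeal_iff hyB' hclear hy w).2 hw𝔫'
      have hl := hlab _ hnmax hwn (passThrough_back hyB' hclear hy hx₁.2 h1)
        (passThrough_back hyB' hclear hy hx₂.2 h2)
      exact hl.of_back hyB' hclear hy hx₁.2 hx₂.2

end Two

end Fermat.Agent.S59.LoSqC.H193
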