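import Fermat.Agent.S59.LoSqC.H193.LabelConst
import Fermat.Agent.S36.H630.LabelHloc

/-!
# S59 / cell (C) LO-SQ, leaf LAB (helper193), part 5: THE LABEL MAP and LAB1-COUNT (two sheets)

Setting of `LabelConst.lean` (two sheets `V₁ ≠ V₂`, `V₁` unramified and discrete, both components
normal, no node at infinity), `Σ` the finite set of the nodes of the finite chart.

* `card_quot_le_of_labels` (Mathlib only) : a group `G` with a homomorphism
  `lab : G → (ι → ZMod m)` such that "`lab g` constant ⟹ `g ∈ P`" satisfies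
  `#(G ⧸ P) ≤ m ^ (#ι - 1)`.
* `isPrimitiveRoot_resAt` : `ζ` has exact order `m` modulo every closed point.
* `TwoCtx` : the standing hypotheses, bundled.
* `splitPure` : the group of the functions `u ≡ 1` on `V₁`, `V₂` with a purity datum at every closed
  point of the special fibre of both charts (the normalised Kummer generators of the toric
  classes).
* `labFun`, `labFun_spec`, `labFun_mul` : THE LABEL MAP `splitPure → (Σ → ZMod m)`:
  `IsLabelAt … 𝔫 V₁ V₂ m ζ u c ↔ (c : ZMod m) = labFun u 𝔫`; additive.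
* `exists_pow_of_labFun_const` : constant labels ⟹ `m`-th power  (**LAB1-INJ**).
* `card_splitPure_le` : `#(splitPure ⧸ m-th powers) ≤ m ^ (#Σ - 1)`  (**LAB1-COUNT**).
-/

set_option autoImplicit false
set_option linter.unusedSectionVars false
set_option linter.unusedVariables false
set_option linter.style.haveILetI false

namespace Fermat.Agent.S59.LoSqC.H193

open Fermat.Agent.S36.H630
open Fermat.Agent.S18.H138 (chart)
open Fermat.Agent.A2.H12 (IsSheet)
open Polynomial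

universe u

section Abstract

/-- **The abstract count.** -/
theorem card_quot_le_of_labels {G : Type*} [CommGroup G] (P : Subgroup G) {ι : Type*}
    [Fintype ι] (m : ℕ) [NeZero m] (lab : G →* Multiplicative (ι → ZMod m))
    (h : ∀ g : G, (∃ c : ZMod m, ∀ i, Multiplicative.toAdd (lab g) i = c) → g ∈ P) :
    Nat.card (G ⧸ P) ≤ m ^ (Fintype.card ι - 1) := by
  classical
  rcases isEmpty_or_nonempty ι with hι | ⟨⟨i₀⟩⟩
  · -- no node: `P = ⊤`
    have hP : P = ⊤ := by
      rw [eq_top_iff]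
      intro g _
      exact h g ⟨0, fun i => (hι.false i).elim⟩
    subst hP
    have : Nat.card (G ⧸ (⊤ : Subgroup G)) = 1 := by
      rw [Nat.card_eq_one_iff_unique]
      exact ⟨QuotientGroup.subsingleton_quotient_top, ⟨1⟩⟩
    rw [this]
    exact Nat.one_le_pow _ _ (Nat.pos_of_ne_zero (NeZero.ne m))
  · -- normalise at `i₀`
    let ι' := {i : ι // i ≠ i₀}
    let φ : G →* Multiplicative (ι' → ZMod m) :=
      { toFun := fun g => Multiplicative.ofAdd
          (fun i : ι' => Multiplicative.toAdd (lab g) i.1 - Multiplicative.toAdd (lab g) i₀)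
        map_one' := by
          apply congrArg Multiplicative.ofAdd
          funext i
          simp
        map_mul' := by
          intro a b
          rw [← ofAdd_add]
          apply congrArg Multiplicative.ofAdd
          funext i
          simp only [map_mul, toAdd_mul, Pi.add_apply]
          ring }
    have hker : φ.ker ≤ P := by
      intro g hg
      rw [MonoidHom.mem_ker] at hg
      refine h g ⟨Multiplicative.toAdd (lab g) i₀, fun i => ?_⟩
      by_cases hi : i = i₀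
      · rw [hi]
      · have h1 := congrFun (congrArg Multiplicative.toAdd hg) ⟨i, hi⟩
        simp only [φ, MonoidHom.coe_mk, OneHom.coe_mk, toAdd_ofAdd, toAdd_one,
          Pi.zero_apply] at h1
        exact sub_eq_zero.1 h1
    -- `G ⧸ ker φ` is finite, of cardinality `≤ m ^ #ι'`
    have hinj : Function.Injective (QuotientGroup.kerLift φ) := QuotientGroup.kerLift_injective φ
    haveI : Finite (Multiplicative (ι' → ZMod m)) := inferInstance
    haveI : Finite (G ⧸ φ.ker) := Finite.of_injective _ hinj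
    have h1 : Nat.card (G ⧸ φ.ker) ≤ Nat.card (Multiplicative (ι' → ZMod m)) :=
      Nat.card_le_card_of_injective _ hinj
    have h2 : Nat.card (Multiplicative (ι' → ZMod m)) = m ^ (Fintype.card ι - 1) := by
      rw [Nat.card_eq_fintype_card]
      have : Fintype.card (Multiplicative (ι' → ZMod m)) = Fintype.card (ι' → ZMod m) :=
        Fintype.card_congr Multiplicative.toAdd
      have hc : Fintype.card ι' = Fintype.card ι - 1 := by
        show Fintype.card {i : ι // i ≠ i₀} = Fintype.card ι - 1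
        rw [Fintype.card_subtype_compl (fun i => i = i₀)]
        simp
      rw [this, Fintype.card_fun, ZMod.card, hc]
    -- `G ⧸ ker φ → G ⧸ P` is onto
    have hsurj : Function.Surjective (QuotientGroup.map φ.ker P (MonoidHom.id G) hker) := by
      intro y
      obtain ⟨g, rfl⟩ := QuotientGroup.mk_surjective y
      exact ⟨QuotientGroup.mk g, rfl⟩
    have h3 : Nat.card (G ⧸ P) ≤ Nat.card (G ⧸ φ.ker) :=
      Nat.card_le_card_of_surjective _ hsurj
    exact h3.trans (h1.trans h2.le)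

end Abstract

section Prim

variable {R : Type*} [CommRing R] {F : Type*} [Field F] [Algebra R F]
variable {B : Subalgebra R F}

/-- **`ζ` has exact order `m` modulo a closed point.** -/
theorem isPrimitiveRoot_resAt (hinjR : Function.Injective (algebraMap R F))
    (n : Ideal B) [hn : n.IsMaximal] {m : ℕ} (hm : 0 < m) {mi : R} (hmi : (m : R) * mi = 1)
    {ζ : R} (hζ : IsPrimitiveRoot ζ m) : IsPrimitiveRoot (resAt n ζ) m := by
  have hζ1 : ζ ^ m = 1 := hζ.pow_eq_one
  refine IsPrimitiveRoot.mk_of_lt _ hm ?_ ?_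
  · rw [← resAt_pow, hζ1, resAt_one]
  · intro l hl hlm h1
    have hne : ζ ^ l ≠ ζ ^ 0 := by
      rw [pow_zero]
      exact hζ.pow_ne_one_of_pos_of_lt hl.ne' hlm
    have hu : IsUnit (ζ ^ l - ζ ^ 0) := isUnit_zeta_pow_sub (Z := F) hinjR hm hmi hζ1 hne
    have hu' : IsUnit (Ideal.Quotient.mk n (algebraMap R B (ζ ^ l - ζ ^ 0))) :=
      (hu.map (algebraMap R B)).map (Ideal.Quotient.mk n)
    have h0 : Ideal.Quotient.mk n (algebraMap R B (ζ ^ l - ζ ^ 0)) = 0 := by
      rw [map_sub, map_sub, sub_eq_zero]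
      have e1 : Ideal.Quotient.mk n (algebraMap R B (ζ ^ l)) = resAt n ζ ^ l := by
        rw [← resAt_pow]
      rw [e1, h1, pow_zero, map_one, map_one]
    rw [h0] at hu'
    have hnt : Nontrivial (B ⧸ n) := Ideal.Quotient.nontrivial_iff.2 hn.ne_top
    exact not_isUnit_zero hu'

end Prim

section Two

variable {R : Type u} [CommRing R] [IsDomain R] [IsDiscreteValuationRing R]
  [HenselianLocalRing R] [IsAlgClosed (IsLocalRing.ResidueField R)] [IsIntegrallyClosed R[X]]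
variable (E : Type u) [Field E] [CharZero E] [Algebra R E] [IsFractionRing R E]
variable {F : Type u} [Field F] [Algebra E F] [Algebra R F] [IsScalarTower R E F]

/-- `𝔫` is a closed point of the special fibre of the chart `B`. -/
def IsClosedPt (w : R) (B : Subalgebra R F) (𝔫 : Ideal B) : Prop :=
  𝔫.IsMaximal ∧ algebraMap R B w ∈ 𝔫

/-- `𝔫` is a node: a closed point of the special fibre through which both sheets pass. -/
def IsNodePt (w : R) (B : Subalgebra R F) (V₁ V₂ : ValuationSubring F) (𝔫 : Ideal B) : Prop :=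
  IsClosedPt w B 𝔫 ∧ PassThrough B 𝔫 V₁ ∧ PassThrough B 𝔫 V₂

/-- **The standing hypotheses of LAB1** (two sheets), bundled. -/
structure TwoCtx (w : R) (q : ℕ) (x : F) (m : ℕ) (ζ : R) (V₁ V₂ : ValuationSubring F) :
    Prop where
  hw : Irreducible w
  hq : q.Prime
  hqR : (q : R) ∈ IsLocalRing.maximalIdeal R
  hx : Transcendental E x
  hfin : FiniteDimensional (IntermediateField.adjoin E ({x} : Set F)) F
  hm : 0 < m
  hqm : ¬ q ∣ m
  hζ : IsPrimitiveRoot ζ m
  hne : V₁ ≠ V₂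
  hsheets : ∀ V, IsSheet w x V → V = V₁ ∨ V = V₂
  hR₁ : ∀ r : R, algebraMap R F r ∈ V₁
  hR₂ : ∀ r : R, algebraMap R F r ∈ V₂
  hx₁ : x ∈ V₁ ∧ x⁻¹ ∈ V₁
  hx₂ : x ∈ V₂ ∧ x⁻¹ ∈ V₂
  hwV₁ : algebraMap R F w ∈ V₁.nonunits
  hunif : ∀ a ∈ V₁.nonunits, a * (algebraMap R F w)⁻¹ ∈ V₁
  hdisc : ∀ g : F, ∃ k : ℕ, g * algebraMap R F w ^ k ∈ V₁
  hnf₁ : NormalAlong (chart R ({x} : Set F)) V₁ m
  hnf₂ : NormalAlong (chart R ({x} : Set F)) V₂ m
  hni₁ : NormalAlong (chart R ({x⁻¹} : Set F)) V₁ m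
  hni₂ : NormalAlong (chart R ({x⁻¹} : Set F)) V₂ m
  hcusp : ∀ 𝔫 : Ideal (chart R ({x⁻¹} : Set F)), 𝔫.IsMaximal →
    algebraMap R (chart R ({x⁻¹} : Set F)) w ∈ 𝔫 →
    (⟨x⁻¹, Fermat.Agent.S18.H138.mem_chart_of_mem rfl⟩ : chart R ({x⁻¹} : Set F)) ∈ 𝔫 →
    ¬ (PassThrough (chart R ({x⁻¹} : Set F)) 𝔫 V₁ ∧
      PassThrough (chart R ({x⁻¹} : Set F)) 𝔫 V₂)

/-- `u ≡ 1` on both sheets, with a purity datum at every closed point of the special fibre of
both charts. -/
def IsSplitPure (w : R) (x : F) (m : ℕ) (V₁ V₂ : ValuationSubring F) (u : F) : Prop :=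
  u - 1 ∈ V₁.nonunits ∧ u - 1 ∈ V₂.nonunits ∧
  (∀ 𝔫 : Ideal (chart R ({x} : Set F)), IsClosedPt w (chart R ({x} : Set F)) 𝔫 →
    ∃ d : F, IsPureAt (chart R ({x} : Set F)) 𝔫 m u d) ∧
  (∀ 𝔫 : Ideal (chart R ({x⁻¹} : Set F)), IsClosedPt w (chart R ({x⁻¹} : Set F)) 𝔫 →
    ∃ d : F, IsPureAt (chart R ({x⁻¹} : Set F)) 𝔫 m u d)

theorem IsSplitPure.one (w : R) (x : F) (m : ℕ) (V₁ V₂ : ValuationSubring F) :
    IsSplitPure w x m V₁ V₂ (1 : F) := by
  refine ⟨?_, ?_, ?_, ?_⟩
  · rw [sub_self]; exact vnu_zero V₁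
  · rw [sub_self]; exact vnu_zero V₂
  · intro 𝔫 h𝔫
    exact ⟨1, IsPureAt.one h𝔫.1.ne_top m⟩
  · intro 𝔫 h𝔫
    exact ⟨1, IsPureAt.one h𝔫.1.ne_top m⟩

theorem split_mul {V : ValuationSubring F} {u u' : F} (h : u - 1 ∈ V.nonunits)
    (h' : u' - 1 ∈ V.nonunits) : u * u' - 1 ∈ V.nonunits := by
  have hu : u ∈ V := by
    have : u = (u - 1) + 1 := by ring
    rw [this]
    exact V.add_mem _ _ (vnu_mem V h) V.one_mem
  have : u * u' - 1 = u * (u' - 1) + (u - 1) := by ring
  rw [this]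
  exact vnu_add V (vnu_mul_left V h' hu) h

theorem split_inv {V : ValuationSubring F} {u : F} (h : u - 1 ∈ V.nonunits) :
    u⁻¹ - 1 ∈ V.nonunits := by
  have huV : u ∈ V ∧ u ∉ V.nonunits := vnu_unit_of_sub V h V.one_mem (vnu_one_not V)
  have hu0 : u ≠ 0 := by
    rintro rfl
    exact huV.2 (vnu_zero V)
  have : u⁻¹ - 1 = -(u⁻¹ * (u - 1)) := by
    field_simp
    ring
  rw [this]
  exact vnu_neg V (vnu_mul_left V h (vnu_inv_mem V huV.1 huV.2))

theorem IsSplitPure.mul {w : R} {x : F} {m : ℕ} {V₁ V₂ : ValuationSubring F} {u u' : F}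
    (h : IsSplitPure w x m V₁ V₂ u) (h' : IsSplitPure w x m V₁ V₂ u') :
    IsSplitPure w x m V₁ V₂ (u * u') := by
  refine ⟨split_mul h.1 h'.1, split_mul h.2.1 h'.2.1, ?_, ?_⟩
  · intro 𝔫 h𝔫
    haveI := h𝔫.1.isPrime
    obtain ⟨d, hd⟩ := h.2.2.1 𝔫 h𝔫
    obtain ⟨d', hd'⟩ := h'.2.2.1 𝔫 h𝔫
    exact ⟨d * d', hd.mul hd'⟩
  · intro 𝔫 h𝔫
    haveI := h𝔫.1.isPrime
    obtain ⟨d, hd⟩ := h.2.2.2 𝔫 h𝔫
    obtain ⟨d', hd'⟩ := h'.2.2.2 𝔫 h𝔫
    exact ⟨d * d', hd.mul hd'⟩

theorem IsSplitPure.inv {w : R} {x : F} {m : ℕ} {V₁ V₂ : ValuationSubring F} {u : F}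
    (h : IsSplitPure w x m V₁ V₂ u) : IsSplitPure w x m V₁ V₂ u⁻¹ := by
  refine ⟨split_inv h.1, split_inv h.2.1, ?_, ?_⟩
  · intro 𝔫 h𝔫
    haveI := h𝔫.1.isPrime
    obtain ⟨d, hd⟩ := h.2.2.1 𝔫 h𝔫
    exact ⟨d⁻¹, hd.inv⟩
  · intro 𝔫 h𝔫
    haveI := h𝔫.1.isPrime
    obtain ⟨d, hd⟩ := h.2.2.2 𝔫 h𝔫
    exact ⟨d⁻¹, hd.inv⟩

/-- **The group of the split functions with purity data.** -/
def splitPure (w : R) (x : F) (m : ℕ) (V₁ V₂ : ValuationSubring F) : Subgroup Fˣ where
  carrier := {u | IsSplitPure w x m V₁ V₂ (u : F)}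
  one_mem' := by
    show IsSplitPure w x m V₁ V₂ ((1 : Fˣ) : F)
    rw [Units.val_one]
    exact IsSplitPure.one w x m V₁ V₂
  mul_mem' := by
    intro a b ha hb
    show IsSplitPure w x m V₁ V₂ ((a * b : Fˣ) : F)
    rw [Units.val_mul]
    exact IsSplitPure.mul ha hb
  inv_mem' := by
    intro a ha
    show IsSplitPure w x m V₁ V₂ ((a⁻¹ : Fˣ) : F)
    rw [Units.val_inv_eq_inv_val]
    exact IsSplitPure.inv ha

/-- The subgroup of the `m`-th powers of `Fˣ`. -/
def powSubgroup (F : Type u) [Field F] (m : ℕ) : Subgroup Fˣ :=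
  (powMonoidHom m : Fˣ →* Fˣ).range

end Two

end Fermat.Agent.S59.LoSqC.H193
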