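import Fermat.Agent.S36.H630.ExistVal

/-!
# S59 / cell (C) LO-SQ, leaf LAB (helper193), part 1: THE LABEL of a split function at a node

Vocabulary of the S36 LABEL core (`S36/H630/ValAt.lean`, on main): `R` the base ring (a DVR),
`F` the function field, `B ⊆ F` a chart, `n` a closed point of the special fibre of `B`,
`V`, `V'` two sheets (valuation rings of the generic points of two components) through `n`.

* `IsPureAt B n m u d` : `d` is a **purity datum** of `u` at `n`: `u d ^ m ∈ (B_n)ˣ`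
  (`u d ^ m s₀ = a₀`, `a₀, s₀ ∈ B ∖ n`).
* `IsLabelAt B n V V' m ζ u c` : **`c` is a label of `u` at `n` for the ordered pair `(V, V')`**:
  a purity datum `d` of `u` at `n` has the values `η` along `V` and `η'` along `V'`
  (`H630.ValAt`), `η` a unit at `n`, and `η' ≡ η ζ ^ c` modulo `n`.

  (If `u = g ^ m` with `g ≡ ζ ^ a` on `V` and `g ≡ ζ ^ a'` on `V'`, then `c = a - a'`:
  `IsLabelAt.of_pow`.  In the notation of `H630.LabelAt` / `H193.BasePureValuesAt` with a
  colouring `κ`: `c = κ V - κ V'`.)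

Proved here (Mathlib + `H630.ValAt` only):

* `IsLabelAt.congr`   : the label only matters modulo `m`;
* `IsLabelAt.unique`  : the label is unique modulo `m` (for a chart closed under `m`-th roots,
                        rational closed point, `ζ` of exact order `m` modulo `n`);
* `IsLabelAt.mul`, `IsLabelAt.one`, `IsLabelAt.inv` : additivity;
* `IsLabelAt.of_pow`  : `m`-th powers of functions with constant residues have the label
                        `a - a'` (independent of the point);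
* `IsLabelAt.symm`    : exchanging the two sheets changes the sign;
* `IsLabelAt.trans`   : three sheets through `n`: `c(V, V'') = c(V, V') + c(V', V'')`;
* `exists_isLabelAt`  : existence, from a purity datum, for `u ≡ 1` on `V` and on `V'`
                        (`H630.exists_valAt_of_pure`).
-/

set_option autoImplicit false
set_option linter.unusedSectionVars false
set_option linter.unusedVariables false
set_option linter.style.haveILetI false

namespace Fermat.Agent.S59.LoSqC.H193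

open Fermat.Agent.S36.H630

variable {R : Type*} [CommRing R] {F : Type*} [Field F] [Algebra R F]

/-- `d` is a purity datum of `u` at the closed point `n`, exponent `m`:
`u d ^ m s₀ = a₀` with `a₀, s₀ ∈ B ∖ n`. -/
def IsPureAt (B : Subalgebra R F) (n : Ideal B) (m : ℕ) (u d : F) : Prop :=
  d ≠ 0 ∧ ∃ a₀ s₀ : B, a₀ ∉ n ∧ s₀ ∉ n ∧ u * d ^ m * (s₀ : F) = a₀

/-- **`c` is a label of `u` at the closed point `n` for the ordered pair of sheets `(V, V')`.** -/
def IsLabelAt (B : Subalgebra R F) (n : Ideal B) (V V' : ValuationSubring F) (m : ℕ) (ζ : R)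
    (u : F) (c : ℕ) : Prop :=
  ∃ (d : F) (η η' : R), IsPureAt B n m u d ∧ algebraMap R B η ∉ n ∧
    ValAt B n V d η ∧ ValAt B n V' d η' ∧ algebraMap R B (η' - η * ζ ^ c) ∈ n

section Pure

variable {B : Subalgebra R F} {n : Ideal B}

theorem IsPureAt.ne_zero {m : ℕ} {u d : F} [n.IsPrime] (h : IsPureAt B n m u d) : u ≠ 0 := by
  obtain ⟨-, a₀, s₀, ha₀, -, hp⟩ := h
  rintro rfl
  apply ha₀
  have : (a₀ : F) = 0 := by rw [← hp]; ring
  have h0 : a₀ = 0 := Subtype.ext this
  rw [h0]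
  exact n.zero_mem

theorem IsPureAt.one (hn : n ≠ ⊤) (m : ℕ) : IsPureAt B n m (1 : F) (1 : F) := by
  refine ⟨one_ne_zero, 1, 1, ?_, ?_, ?_⟩
  · exact fun h => hn ((Ideal.eq_top_iff_one n).2 h)
  · exact fun h => hn ((Ideal.eq_top_iff_one n).2 h)
  · simp

theorem IsPureAt.mul [hn : n.IsPrime] {m : ℕ} {u u' d d' : F} (h : IsPureAt B n m u d)
    (h' : IsPureAt B n m u' d') : IsPureAt B n m (u * u') (d * d') := by
  obtain ⟨hd, a₀, s₀, ha₀, hs₀, hp⟩ := h
  obtain ⟨hd', a₁, s₁, ha₁, hs₁, hp'⟩ := h'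
  refine ⟨mul_ne_zero hd hd', a₀ * a₁, s₀ * s₁, ?_, ?_, ?_⟩
  · intro hmem
    rcases hn.mem_or_mem hmem with h1 | h1
    · exact ha₀ h1
    · exact ha₁ h1
  · intro hmem
    rcases hn.mem_or_mem hmem with h1 | h1
    · exact hs₀ h1
    · exact hs₁ h1
  · push_cast
    rw [← hp, ← hp']
    ring

theorem IsPureAt.inv [hn : n.IsPrime] {m : ℕ} {u d : F} (h : IsPureAt B n m u d) :
    IsPureAt B n m u⁻¹ d⁻¹ := by
  have hu0 : u ≠ 0 := h.ne_zero
  obtain ⟨hd, a₀, s₀, ha₀, hs₀, hp⟩ := h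
  refine ⟨inv_ne_zero hd, s₀, a₀, hs₀, ha₀, ?_⟩
  rw [← hp, inv_pow]
  have hdm : d ^ m ≠ 0 := pow_ne_zero _ hd
  field_simp

/-- A global `m`-th power `g ^ m` has the purity datum `g⁻¹`. -/
theorem IsPureAt.of_pow (hn : n ≠ ⊤) (m : ℕ) {g : F} (hg : g ≠ 0) :
    IsPureAt B n m (g ^ m) g⁻¹ := by
  refine ⟨inv_ne_zero hg, 1, 1, ?_, ?_, ?_⟩
  · exact fun h => hn ((Ideal.eq_top_iff_one n).2 h)
  · exact fun h => hn ((Ideal.eq_top_iff_one n).2 h)
  · rw [inv_pow]
    have : g ^ m ≠ 0 := pow_ne_zero _ hg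
    simp only [OneMemClass.coe_one, mul_one]
    field_simp

end Pure

section Quot

variable {B : Subalgebra R F} {n : Ideal B}

/-- membership of a difference of constants, in the quotient -/
theorem mk_eq_of_sub_mem {a b : R} (h : algebraMap R B (a - b) ∈ n) :
    Ideal.Quotient.mk n (algebraMap R B a) = Ideal.Quotient.mk n (algebraMap R B b) := by
  rw [Ideal.Quotient.eq, ← map_sub]
  exact h

theorem sub_mem_of_mk_eq {a b : R}
    (h : Ideal.Quotient.mk n (algebraMap R B a) = Ideal.Quotient.mk n (algebraMap R B b)) :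
    algebraMap R B (a - b) ∈ n := by
  rw [map_sub, ← Ideal.Quotient.eq]
  exact h

theorem mk_ne_zero_of_not_mem {a : R} (h : algebraMap R B a ∉ n) :
    Ideal.Quotient.mk n (algebraMap R B a) ≠ 0 := fun h0 =>
  h (Ideal.Quotient.eq_zero_iff_mem.1 h0)

end Quot

section Label

variable {B : Subalgebra R F} {n : Ideal B} {V V' V'' : ValuationSubring F}

/-- The residue of a constant at `n`. -/
noncomputable abbrev resAt (n : Ideal B) (a : R) : B ⧸ n :=
  Ideal.Quotient.mk n (algebraMap R B a)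

theorem resAt_mul (a b : R) : resAt n (a * b) = resAt n a * resAt n b := by
  simp only [resAt, map_mul]

theorem resAt_pow (a : R) (k : ℕ) : resAt n (a ^ k) = resAt n a ^ k := by
  simp only [resAt, map_pow]

theorem resAt_one : resAt n (1 : R) = 1 := by
  simp only [resAt, map_one]

/-- The label only matters modulo `m`. -/
theorem IsLabelAt.congr {m : ℕ} {ζ : R} (hζ : ζ ^ m = 1) {u : F} {c c' : ℕ}
    (h : IsLabelAt B n V V' m ζ u c) (hcc : c ≡ c' [MOD m]) :
    IsLabelAt B n V V' m ζ u c' := by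
  obtain ⟨d, η, η', hp, hη, hv, hv', hl⟩ := h
  refine ⟨d, η, η', hp, hη, hv, hv', ?_⟩
  have : ζ ^ c = ζ ^ c' := by
    rw [← Nat.mod_add_div c m, ← Nat.mod_add_div c' m, pow_add, pow_add, pow_mul, pow_mul, hζ,
      one_pow, one_pow, mul_one, mul_one]
    exact congrArg (ζ ^ ·) hcc
  rw [← this]
  exact hl

/-- **Additivity of the label.** -/
theorem IsLabelAt.mul [hn : n.IsPrime] (hBV : ChartLe B V) (hth : PassThrough B n V)
    (hBV' : ChartLe B V') (hth' : PassThrough B n V') {m : ℕ} {ζ : R} {u u' : F} {c c' : ℕ}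
    (h : IsLabelAt B n V V' m ζ u c) (h' : IsLabelAt B n V V' m ζ u' c') :
    IsLabelAt B n V V' m ζ (u * u') (c + c') := by
  obtain ⟨d, η, η', hp, hη, hv, hv', hl⟩ := h
  obtain ⟨d₁, η₁, η₁', hp₁, hη₁, hv₁, hv₁', hl₁⟩ := h'
  refine ⟨d * d₁, η * η₁, η' * η₁', hp.mul hp₁, ?_, hv.mul hBV hth hv₁, hv'.mul hBV' hth' hv₁', ?_⟩
  · rw [map_mul]
    intro hmem
    rcases hn.mem_or_mem hmem with h1 | h1
    · exact hη h1
    · exact hη₁ h1
  · have : η' * η₁' - η * η₁ * ζ ^ (c + c')
        = (η' - η * ζ ^ c) * η₁' + η * ζ ^ c * (η₁' - η₁ * ζ ^ c') := by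
      rw [pow_add]
      ring
    rw [this, map_add, map_mul, map_mul]
    exact n.add_mem (n.mul_mem_right _ hl) (n.mul_mem_left _ hl₁)

/-- The function `1` has the label `0`. -/
theorem IsLabelAt.one (hn : n ≠ ⊤) (m : ℕ) (ζ : R) : IsLabelAt B n V V' m ζ (1 : F) 0 := by
  refine ⟨1, 1, 1, IsPureAt.one hn m, ?_, ValAt.one hn, ValAt.one hn, ?_⟩
  · rw [map_one]
    exact fun h => hn ((Ideal.eq_top_iff_one n).2 h)
  · simp

/-- `ζ ^ j` only depends on `j` modulo `m`. -/
theorem zeta_pow_congr {ζ : R} {m : ℕ} (hζ : ζ ^ m = 1) {j k : ℕ} (hjk : j ≡ k [MOD m]) :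
    ζ ^ j = ζ ^ k := by
  rw [← Nat.mod_add_div j m, ← Nat.mod_add_div k m, pow_add, pow_add, pow_mul, pow_mul,
    hζ, one_pow, one_pow, mul_one, mul_one]
  exact congrArg (ζ ^ ·) hjk

theorem zeta_pow_mul_inv' {ζ : R} {m : ℕ} (hm : 0 < m) (hζ : ζ ^ m = 1) (k : ℕ) :
    ζ ^ k * ζ ^ ((m - 1) * k) = 1 := by
  rw [← pow_add]
  have : k + (m - 1) * k = m * k := by
    calc k + (m - 1) * k = (m - 1 + 1) * k := by ring
      _ = m * k := by rw [Nat.sub_add_cancel hm]
  rw [this, pow_mul, hζ, one_pow]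

/-- **`m`-th powers**: if `g ≡ ζ ^ a` on `V` and `g ≡ ζ ^ a'` on `V'`, then `g ^ m` has the label
`c` for every `c` with `c + a' ≡ a` modulo `m`. -/
theorem IsLabelAt.of_pow [hn : n.IsPrime] (hBV : ChartLe B V) (hth : PassThrough B n V)
    (hBV' : ChartLe B V') (hth' : PassThrough B n V') {m : ℕ} (hm : 0 < m) {ζ : R}
    (hζ : ζ ^ m = 1) {g : F} (hg : g ≠ 0) {a a' c : ℕ}
    (ha : g - algebraMap R F (ζ ^ a) ∈ V.nonunits)
    (ha' : g - algebraMap R F (ζ ^ a') ∈ V'.nonunits) (hc : c + a' ≡ a [MOD m]) :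
    IsLabelAt B n V V' m ζ (g ^ m) c := by
  have hne : n ≠ ⊤ := hn.ne_top
  have hinv : ∀ k : ℕ, algebraMap R B (ζ ^ k * ζ ^ ((m - 1) * k) - 1) ∈ n := by
    intro k
    rw [zeta_pow_mul_inv' hm hζ k, sub_self, map_zero]
    exact n.zero_mem
  have hv : ValAt B n V g⁻¹ (ζ ^ ((m - 1) * a)) :=
    (ValAt.const (B := B) (n := n) hne ha).inv hBV hth (hinv a)
  have hv' : ValAt B n V' g⁻¹ (ζ ^ ((m - 1) * a')) :=
    (ValAt.const (B := B) (n := n) hne ha').inv hBV' hth' (hinv a')
  refine ⟨g⁻¹, ζ ^ ((m - 1) * a), ζ ^ ((m - 1) * a'), IsPureAt.of_pow hne m hg, ?_, hv, hv', ?_⟩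
  · intro hmem
    apply hne
    rw [Ideal.eq_top_iff_one]
    have h1 : algebraMap R B (ζ ^ a) * algebraMap R B (ζ ^ ((m - 1) * a)) ∈ n :=
      n.mul_mem_left _ hmem
    rw [← map_mul, zeta_pow_mul_inv' hm hζ a, map_one] at h1
    exact h1
  · -- `ζ ^ ((m-1) a') = ζ ^ ((m-1) a) ζ ^ c`  since  `c + a' ≡ a`
    have hkey : ζ ^ ((m - 1) * a') - ζ ^ ((m - 1) * a) * ζ ^ c = 0 := by
      rw [sub_eq_zero, ← pow_add]
      apply zeta_pow_congr hζ
      have h1 : (m - 1) * a' + (a + a') ≡ (m - 1) * a + c + (a + a') [MOD m] := by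
        have e1 : (m - 1) * a' + (a + a') = m * a' + a := by
          calc (m - 1) * a' + (a + a') = (m - 1 + 1) * a' + a := by ring
            _ = m * a' + a := by rw [Nat.sub_add_cancel hm]
        have e2 : (m - 1) * a + c + (a + a') = m * a + (c + a') := by
          calc (m - 1) * a + c + (a + a') = (m - 1 + 1) * a + (c + a') := by ring
            _ = m * a + (c + a') := by rw [Nat.sub_add_cancel hm]
        rw [e1, e2]
        have h2 : m * a' + a ≡ a [MOD m] := by
          have := (Nat.modEq_zero_iff_dvd.2 (dvd_mul_right m a')).add_right a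
          simp only [zero_add] at this
          exact this
        have h3 : m * a + (c + a') ≡ c + a' [MOD m] := by
          have := (Nat.modEq_zero_iff_dvd.2 (dvd_mul_right m a)).add_right (c + a')
          simp only [zero_add] at this
          exact this
        exact h2.trans (hc.symm.trans h3.symm)
      exact Nat.ModEq.add_right_cancel' (a + a') h1
    rw [hkey, map_zero]
    exact n.zero_mem

/-- **Exchanging the two sheets** changes the sign of the label. -/
theorem IsLabelAt.symm [hn : n.IsMaximal] {m : ℕ} {ζ : R} (hζ : ζ ^ m = 1) {u : F} {c c' : ℕ}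
    (h : IsLabelAt B n V V' m ζ u c) (hcc : c + c' ≡ 0 [MOD m]) :
    IsLabelAt B n V' V m ζ u c' := by
  have hnp : n.IsPrime := hn.isPrime
  obtain ⟨d, η, η', hp, hη, hv, hv', hl⟩ := h
  have hζcc : ζ ^ (c + c') = 1 := by
    obtain ⟨k, hk⟩ := (Nat.modEq_zero_iff_dvd.1 hcc)
    rw [hk, pow_mul, hζ, one_pow]
  have hζu : algebraMap R B (ζ ^ c) ∉ n := by
    intro hmem
    apply hnp.ne_top
    rw [Ideal.eq_top_iff_one]
    have : (1 : B) = algebraMap R B (ζ ^ c) * algebraMap R B (ζ ^ c') := by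
      rw [← map_mul, ← pow_add, hζcc, map_one]
    rw [this]
    exact n.mul_mem_right _ hmem
  refine ⟨d, η', η, hp, ?_, hv', hv, ?_⟩
  · intro hmem
    -- `η ζ^c = η' - (η' - η ζ^c) ∈ n`
    have h1 : algebraMap R B (η * ζ ^ c) ∈ n := by
      have : algebraMap R B (η * ζ ^ c) = algebraMap R B η' - algebraMap R B (η' - η * ζ ^ c) := by
        rw [map_sub]
        ring
      rw [this]
      exact n.sub_mem hmem hl
    rw [map_mul] at h1
    rcases hnp.mem_or_mem h1 with h2 | h2
    · exact hη h2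
    · exact hζu h2
  · have : η - η' * ζ ^ c' = -((η' - η * ζ ^ c) * ζ ^ c') - η * (ζ ^ (c + c') - 1) := by
      rw [pow_add]
      ring
    rw [this, hζcc, sub_self, mul_zero, sub_zero, map_neg, map_mul]
    exact n.neg_mem (n.mul_mem_right _ hl)

end Label

end Fermat.Agent.S59.LoSqC.H193
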