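import Fermat.Agent.S59.LoSqC.H193.PureLevel

/-!
# S59 / cell (C) LO-SQ, leaf LAB (helper193), part 11: LAB1 for `splitDiv`, final forms

* `finite_quot_of_labels` (Mathlib only) : the quotient `G ⧸ P` of `card_quot_le_of_labels` is
  FINITE;
* `card_splitDiv_le`, `finite_splitDiv_quot` : `splitDiv ⧸ (m-th powers)` is finite of order
  `≤ m ^ (#Σ - 1)` (abstract `TwoCtx`);
* `card_splitDiv_level_le`, `finite_splitDiv_level_quot` : the same at the concrete objects of
  level `M q` (`Mod3.Std`), in the EXACT shape of the instance argument and of the bound used by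
  helper296's `LabJ.lean` (`(powMonoidHom m).range.subgroupOf U`, `U = splitDiv`).
-/

set_option autoImplicit false
set_option linter.style.haveILetI false
set_option linter.unusedSectionVars false
set_option linter.unusedVariables false
set_option synthInstance.maxHeartbeats 400000
set_option maxHeartbeats 1600000

noncomputable section

namespace Fermat.Agent.S59.LoSqC.H193

open ModularCurve Polynomial
open Fermat.Agent.S18.H138 (chart baseField)
open Fermat.Agent
open Fermat.Agent.S36.H630 (PassThrough)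

universe u

section Abstract

/-- **Finiteness** of the quotient in the abstract count. -/
theorem finite_quot_of_labels {G : Type*} [CommGroup G] (P : Subgroup G) {ι : Type*}
    [Fintype ι] (m : ℕ) [NeZero m] (lab : G →* Multiplicative (ι → ZMod m))
    (h : ∀ g : G, (∃ c : ZMod m, ∀ i, Multiplicative.toAdd (lab g) i = c) → g ∈ P) :
    Finite (G ⧸ P) := by
  classical
  have hker : lab.ker ≤ P := by
    intro g hg
    rw [MonoidHom.mem_ker] at hg
    refine h g ⟨0, fun i => ?_⟩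
    rw [hg]
    rfl
  have hinj : Function.Injective (QuotientGroup.kerLift lab) := QuotientGroup.kerLift_injective lab
  haveI : Finite (Multiplicative (ι → ZMod m)) := inferInstance
  haveI : Finite (G ⧸ lab.ker) := Finite.of_injective _ hinj
  have hsurj : Function.Surjective (QuotientGroup.map lab.ker P (MonoidHom.id G) hker) := by
    intro y
    obtain ⟨g, rfl⟩ := QuotientGroup.mk_surjective y
    exact ⟨QuotientGroup.mk g, rfl⟩
  exact Finite.of_surjective _ hsurj

end Abstract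

section Two

variable {R : Type u} [CommRing R] [IsDomain R] [IsDiscreteValuationRing R]
  [HenselianLocalRing R] [IsAlgClosed (IsLocalRing.ResidueField R)] [IsIntegrallyClosed R[X]]
variable (E : Type u) [Field E] [CharZero E] [Algebra R E] [IsFractionRing R E]
variable {F : Type u} [Field F] [Algebra E F] [Algebra R F] [IsScalarTower R E F]
variable {w : R} {q : ℕ} {x : F} {m : ℕ} {ζ : R} {V₁ V₂ : ValuationSubring F}

variable (Sg : Finset (Ideal (chart R ({x} : Set F))))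

include E in
/-- **LAB1-COUNT for `splitDiv`.** -/
theorem card_splitDiv_le (ctx : TwoCtx E w q x m ζ V₁ V₂)
    (hSg : ∀ 𝔫 ∈ Sg, IsNodePt w (chart R ({x} : Set F)) V₁ V₂ 𝔫)
    (hall : ∀ 𝔫, IsNodePt w (chart R ({x} : Set F)) V₁ V₂ 𝔫 → 𝔫 ∈ Sg) :
    Nat.card (splitDiv E w x m V₁ V₂ ⧸
      ((powMonoidHom m : Fˣ →* Fˣ).range).subgroupOf (splitDiv E w x m V₁ V₂)) ≤
        m ^ (Sg.card - 1) := by
  haveI : NeZero m := ⟨ctx.hm.ne'⟩
  have h := card_quot_le_of_labels
    (((powMonoidHom m : Fˣ →* Fˣ).range).subgroupOf (splitDiv E w x m V₁ V₂)) m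
    ((labHom E Sg ctx hSg).comp (Subgroup.inclusion (splitDiv_le E)))
    (by
      rintro u ⟨c, hc⟩
      rw [Subgroup.mem_subgroupOf]
      exact mem_powSubgroup_of_labFun_const E Sg ctx hSg hall
        (Subgroup.inclusion (splitDiv_le E) u) c hc)
  rwa [Fintype.card_coe] at h

include E in
/-- `splitDiv ⧸ (m-th powers)` is finite. -/
theorem finite_splitDiv_quot (ctx : TwoCtx E w q x m ζ V₁ V₂)
    (hSg : ∀ 𝔫 ∈ Sg, IsNodePt w (chart R ({x} : Set F)) V₁ V₂ 𝔫)
    (hall : ∀ 𝔫, IsNodePt w (chart R ({x} : Set F)) V₁ V₂ 𝔫 → 𝔫 ∈ Sg) :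
    Finite (splitDiv E w x m V₁ V₂ ⧸
      ((powMonoidHom m : Fˣ →* Fˣ).range).subgroupOf (splitDiv E w x m V₁ V₂)) := by
  haveI : NeZero m := ⟨ctx.hm.ne'⟩
  exact finite_quot_of_labels
    (((powMonoidHom m : Fˣ →* Fˣ).range).subgroupOf (splitDiv E w x m V₁ V₂)) m
    ((labHom E Sg ctx hSg).comp (Subgroup.inclusion (splitDiv_le E)))
    (by
      rintro u ⟨c, hc⟩
      rw [Subgroup.mem_subgroupOf]
      exact mem_powSubgroup_of_labFun_const E Sg ctx hSg hall
        (Subgroup.inclusion (splitDiv_le E) u) c hc)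

end Two

section Level

variable {P : ValuationSubring A2.Qb} {E : IntermediateField ℚ A2.Qb} {M q : ℕ}
  [NeZero M] [NeZero q] [NeZero (M * q)]

/-- **LAB1-COUNT for `splitDiv` at the concrete objects of level `M q`.** -/
theorem card_splitDiv_level_le [IsDiscreteValuationRing (A2.RE P E)]
    [HenselianLocalRing (A2.RE P E)] [IsAlgClosed (IsLocalRing.ResidueField (A2.RE P E))]
    {w : A2.RE P E} (hS : S36.Mod3.Std P E M q w)
    {V : ValuationSubring (A2.Mod.FE E (M * q))} (hV : A2.Mod.IsVinf P E (M * q) V)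
    {W : A2.Mod.FE E (M * q) ≃ₐ[E] A2.Mod.FE E (M * q)} (hW : A2.Mod.IsFricke E (M * q) W)
    {m : ℕ} (hm : 0 < m) (hqm : ¬ q ∣ m) {ζ : A2.RE P E} (hζ : IsPrimitiveRoot ζ m)
    (Sg : Finset (Ideal (chart (A2.RE P E) ({A2.Mod.xE E M q} : Set (A2.Mod.FE E (M * q))))))
    (hSg : ∀ 𝔫 ∈ Sg, IsNodePt w
      (chart (A2.RE P E) ({A2.Mod.xE E M q} : Set (A2.Mod.FE E (M * q))))
      V (V.comap (W : A2.Mod.FE E (M * q) →+* A2.Mod.FE E (M * q))) 𝔫)
    (hall : ∀ 𝔫, IsNodePt w (chart (A2.RE P E) ({A2.Mod.xE E M q} : Set (A2.Mod.FE E (M * q))))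
      V (V.comap (W : A2.Mod.FE E (M * q) →+* A2.Mod.FE E (M * q))) 𝔫 → 𝔫 ∈ Sg) :
    Nat.card (splitDiv (R := A2.RE P E) E w (A2.Mod.xE E M q) m V
        (V.comap (W : A2.Mod.FE E (M * q) →+* A2.Mod.FE E (M * q))) ⧸
      ((powMonoidHom m : (A2.Mod.FE E (M * q))ˣ →* (A2.Mod.FE E (M * q))ˣ).range).subgroupOf
        (splitDiv (R := A2.RE P E) E w (A2.Mod.xE E M q) m V
          (V.comap (W : A2.Mod.FE E (M * q) →+* A2.Mod.FE E (M * q))))) ≤ m ^ (Sg.card - 1) :=
  card_splitDiv_le (R := A2.RE P E) E Sg (twoCtx_level hS hV hW hm hqm hζ) hSg hall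

/-- `splitDiv ⧸ (m-th powers)` is finite, at the concrete objects of level `M q`. -/
theorem finite_splitDiv_level_quot [IsDiscreteValuationRing (A2.RE P E)]
    [HenselianLocalRing (A2.RE P E)] [IsAlgClosed (IsLocalRing.ResidueField (A2.RE P E))]
    {w : A2.RE P E} (hS : S36.Mod3.Std P E M q w)
    {V : ValuationSubring (A2.Mod.FE E (M * q))} (hV : A2.Mod.IsVinf P E (M * q) V)
    {W : A2.Mod.FE E (M * q) ≃ₐ[E] A2.Mod.FE E (M * q)} (hW : A2.Mod.IsFricke E (M * q) W)
    {m : ℕ} (hm : 0 < m) (hqm : ¬ q ∣ m) {ζ : A2.RE P E} (hζ : IsPrimitiveRoot ζ m)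
    (Sg : Finset (Ideal (chart (A2.RE P E) ({A2.Mod.xE E M q} : Set (A2.Mod.FE E (M * q))))))
    (hSg : ∀ 𝔫 ∈ Sg, IsNodePt w
      (chart (A2.RE P E) ({A2.Mod.xE E M q} : Set (A2.Mod.FE E (M * q))))
      V (V.comap (W : A2.Mod.FE E (M * q) →+* A2.Mod.FE E (M * q))) 𝔫)
    (hall : ∀ 𝔫, IsNodePt w (chart (A2.RE P E) ({A2.Mod.xE E M q} : Set (A2.Mod.FE E (M * q))))
      V (V.comap (W : A2.Mod.FE E (M * q) →+* A2.Mod.FE E (M * q))) 𝔫 → 𝔫 ∈ Sg) :
    Finite (splitDiv (R := A2.RE P E) E w (A2.Mod.xE E M q) m V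
        (V.comap (W : A2.Mod.FE E (M * q) →+* A2.Mod.FE E (M * q))) ⧸
      ((powMonoidHom m : (A2.Mod.FE E (M * q))ˣ →* (A2.Mod.FE E (M * q))ˣ).range).subgroupOf
        (splitDiv (R := A2.RE P E) E w (A2.Mod.xE E M q) m V
          (V.comap (W : A2.Mod.FE E (M * q) →+* A2.Mod.FE E (M * q))))) :=
  finite_splitDiv_quot (R := A2.RE P E) E Sg (twoCtx_level hS hV hW hm hqm hζ) hSg hall

end Level

end Fermat.Agent.S59.LoSqC.H193

end
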