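import Fermat.Agent.S59.LoSqC.H193.LabelUniq
import Fermat.Agent.S36.H630.ToBase
import Fermat.Agent.S36.H630.CtxAux
import Fermat.Agent.S36.H193.WallFlex

/-!
# S59 / cell (C) LO-SQ, leaf LAB (helper193), part 3: LAB-INJ — the label wall in PAIRWISE form

* `labelAt_of_pairwise` : at a closed point `n`, pairwise labels `c W` of `u` for the pairs
  `(V₁, W)`, `W ∈ 𝒱` through `n`, relative to ONE base sheet `V₁` through `n`, with
  `c W + κ W ≡ κ V₁` modulo `m`, give the label datum `H630.LabelAt B n 𝒱 m u ζ κ`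
  for the colouring `κ`.
* `exists_pow_eq_of_labels` (**LAB-INJ**) : in the setting of the label wall
  (`H193.exists_pow_eq_of_base_set`): if `f ≡ 1` on every sheet and the pairwise labels of `f`
  at ALL closed points of the special fibre of both charts are given by ONE colouring `κ`
  ("the labels are constant"), then `f` is an `m`-th power.

So the label map `u ↦ (labels of u at the nodes)` is injective modulo `m`-th powers and
constants.  Everything is for an arbitrary set `𝒱` of sheets (2 sheets at level `Mq`, 3 sheets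
at level `Mq²`).
-/

set_option autoImplicit false
set_option linter.unusedSectionVars false
set_option linter.unusedVariables false
set_option linter.style.haveILetI false

namespace Fermat.Agent.S59.LoSqC.H193

open Fermat.Agent.S36.H630
open Fermat.Agent.S18.H138 (chart)
open Fermat.Agent.A2.H12 (IsSheet)
open Polynomial

universe u

section Pairwise

variable {R : Type*} [CommRing R] {F : Type*} [Field F] [Algebra R F]
variable {B : Subalgebra R F} {n : Ideal B}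

/-- **Pairwise labels relative to a base sheet give the label datum of a colouring.** -/
theorem labelAt_of_pairwise [hn : n.IsMaximal] {m : ℕ} (hm : 0 < m)
    (hroot : ∀ z : F, z ^ m ∈ B → z ∈ B)
    (hrat : ∀ b : B, ∃ r : R, b - algebraMap R B r ∈ n)
    {𝒱 : Set (ValuationSubring F)} (hBV : ∀ V ∈ 𝒱, ChartLe B V)
    {ζ : R} (hζ : ζ ^ m = 1) {u : F} (κ : ValuationSubring F → ℕ)
    {V₁ : ValuationSubring F} (hV₁ : V₁ ∈ 𝒱) (hth₁ : PassThrough B n V₁)
    (h : ∀ W ∈ 𝒱, PassThrough B n W →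
      ∃ c : ℕ, IsLabelAt B n V₁ W m ζ u c ∧ c + κ W ≡ κ V₁ [MOD m]) :
    LabelAt B n 𝒱 m u ζ κ := by
  have hnp : n.IsPrime := hn.isPrime
  -- the datum of the pair `(V₁, V₁)`
  obtain ⟨c₁, ⟨d, η, η', hp, hη, hv, hv', hl⟩, hc₁⟩ := h V₁ hV₁ hth₁
  obtain ⟨hd, a₀, s₀, ha₀, hs₀, hpure⟩ := hp
  have hζk : ∀ k : ℕ, algebraMap R B (ζ ^ k) ∉ n := by
    intro k hmem
    apply hnp.ne_top
    rw [Ideal.eq_top_iff_one]
    have : (1 : B) = algebraMap R B (ζ ^ k) * algebraMap R B (ζ ^ ((m - 1) * k)) := by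
      rw [← map_mul, zeta_pow_mul_inv' hm hζ, map_one]
    rw [this]
    exact n.mul_mem_right _ hmem
  refine ⟨d, a₀, s₀, η * ζ ^ κ V₁, hd, hs₀, hpure, ?_, ?_⟩
  · rw [map_mul]
    intro hmem
    rcases hnp.mem_or_mem hmem with h1 | h1
    · exact hη h1
    · exact hζk _ h1
  · intro W hW hthW
    obtain ⟨c, hlab, hc⟩ := h W hW hthW
    -- the value of `d` along `W`
    obtain ⟨d₁, ξ, ξ', hp₁, hξ, hw, hw', hl₁⟩ := hlab
    obtain ⟨θ, hθ, hθv⟩ := hp₁.exists_ratio hm hroot hrat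
      (⟨hd, a₀, s₀, ha₀, hs₀, hpure⟩ : IsPureAt B n m u d)
    have hx : ValAt B n V₁ d (ξ * θ) := hθv V₁ (hBV V₁ hV₁) hth₁ ξ hw
    have hx' : ValAt B n W d (ξ' * θ) := hθv W (hBV W hW) hthW ξ' hw'
    have h1 := hx.unique (hBV V₁ hV₁) hth₁ hv
    refine hx'.congr_const ?_
    -- `ξ' θ ≡ η ζ ^ c = η ζ ^ (κ V₁) ζ ^ ((m-1) κ W)`
    have hpow : ζ ^ c = ζ ^ κ V₁ * ζ ^ ((m - 1) * κ W) := by
      rw [← pow_add]
      apply zeta_pow_congr hζ
      -- `c ≡ κ V₁ + (m-1) κ W`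
      have e1 : κ V₁ + (m - 1) * κ W + κ W = κ V₁ + m * κ W := by
        calc κ V₁ + (m - 1) * κ W + κ W = κ V₁ + (m - 1 + 1) * κ W := by ring
          _ = κ V₁ + m * κ W := by rw [Nat.sub_add_cancel hm]
      have h2 : κ V₁ + m * κ W ≡ κ V₁ [MOD m] := by
        have := (Nat.modEq_zero_iff_dvd.2 (dvd_mul_right m (κ W))).add_left (κ V₁)
        simp only [add_zero] at this
        exact this
      have h3 : c + κ W ≡ κ V₁ + (m - 1) * κ W + κ W [MOD m] := by
        rw [e1]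
        exact hc.trans h2.symm
      exact Nat.ModEq.add_right_cancel' (κ W) h3
    have : ξ' * θ - η * ζ ^ κ V₁ * ζ ^ ((m - 1) * κ W)
        = (ξ' - ξ * ζ ^ c) * θ + (ξ * θ - η) * ζ ^ c := by
      rw [mul_assoc η, ← hpow]
      ring
    rw [this, map_add, map_mul, map_mul]
    exact n.add_mem (n.mul_mem_right _ hl₁) (n.mul_mem_right _ h1)

end Pairwise

section Root

variable {R : Type*} [CommRing R] {F : Type*} [Field F] [Algebra R F]

/-- a chart is closed under `m`-th roots -/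
theorem chart_root_mem' {S : Set F} {m : ℕ} (hm : 0 < m) {z : F} (hz : z ^ m ∈ chart R S) :
    z ∈ chart R S := by
  rw [Fermat.Agent.S18.H138.mem_chart] at hz ⊢
  exact IsIntegral.of_pow hm hz

end Root

section Wall

variable {R : Type u} [CommRing R] [IsDomain R] [IsDiscreteValuationRing R]
  [HenselianLocalRing R] [IsAlgClosed (IsLocalRing.ResidueField R)] [IsIntegrallyClosed R[X]]
variable (E : Type u) [Field E] [CharZero E] [Algebra R E] [IsFractionRing R E]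
variable {F : Type u} [Field F] [Algebra E F] [Algebra R F] [IsScalarTower R E F]

/-- Closed points of the special fibre of a chart: rationality, from `w ∈ n`. -/
theorem rat_of_mem (w : R) (hw : Irreducible w) (x : F)
    (n : Ideal (chart R ({x} : Set F))) (hn : n.IsMaximal)
    (hwn : algebraMap R (chart R ({x} : Set F)) w ∈ n) (b : chart R ({x} : Set F)) :
    ∃ r : R, b - algebraMap R (chart R ({x} : Set F)) r ∈ n := by
  refine rat_chart x n hn ?_ b
  intro r hr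
  have hspan : IsLocalRing.maximalIdeal R = Ideal.span {w} :=
    (hw.maximalIdeal_eq).trans rfl
  rw [hspan, Ideal.mem_span_singleton] at hr
  obtain ⟨t, rfl⟩ := hr
  rw [map_mul]
  exact n.mul_mem_right _ hwn

include E in
/-- **LAB-INJ: the label wall in pairwise form.**  `𝒱` a set of valuation rings containing all
sheets, each containing `R`, `x` and `x⁻¹`; `V₀` an unramified discrete valuation ring on which
`f ≡ 1`; `κ` a colouring of the sheets.  If at every closed point `𝔫` of the special fibre of the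
two charts the pairwise labels of `f` relative to some sheet `V₁` through `𝔫` are
`κ V₁ - κ W`, then `f` is an `m`-th power. -/
theorem exists_pow_eq_of_labels (w : R) (hw : Irreducible w) (q : ℕ) (hq : q.Prime)
    (hqR : (q : R) ∈ IsLocalRing.maximalIdeal R)
    {x : F} (hx : Transcendental E x)
    (hfin : FiniteDimensional (IntermediateField.adjoin E ({x} : Set F)) F)
    {m : ℕ} (hm : 0 < m) (hqm : ¬ q ∣ m) {ζ : R} (hζ : IsPrimitiveRoot ζ m)
    {f : F} (hf0 : f ≠ 0)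
    (𝒱 : Set (ValuationSubring F)) (h𝒱 : ∀ V, IsSheet w x V → V ∈ 𝒱)
    (hR𝒱 : ∀ V ∈ 𝒱, ∀ r : R, algebraMap R F r ∈ V)
    (hx𝒱 : ∀ V ∈ 𝒱, x ∈ V ∧ x⁻¹ ∈ V)
    (hsplit : ∀ V ∈ 𝒱, f - 1 ∈ V.nonunits)
    (V₀ : ValuationSubring F) (hRV₀ : ∀ r : R, algebraMap R F r ∈ V₀)
    (hwV₀ : algebraMap R F w ∈ V₀.nonunits) (hsplit₀ : f - 1 ∈ V₀.nonunits)
    (hunif : ∀ a ∈ V₀.nonunits, a * (algebraMap R F w)⁻¹ ∈ V₀)
    (hdisc : ∀ g : F, ∃ k : ℕ, g * algebraMap R F w ^ k ∈ V₀)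
    (κ : ValuationSubring F → ℕ)
    (hlab_fin : ∀ 𝔫 : Ideal (chart R ({x} : Set F)), 𝔫.IsMaximal →
      algebraMap R (chart R ({x} : Set F)) w ∈ 𝔫 →
      ∃ V₁ ∈ 𝒱, PassThrough (chart R ({x} : Set F)) 𝔫 V₁ ∧
        ∀ W ∈ 𝒱, PassThrough (chart R ({x} : Set F)) 𝔫 W →
          ∃ c : ℕ, IsLabelAt (chart R ({x} : Set F)) 𝔫 V₁ W m ζ f c ∧
            c + κ W ≡ κ V₁ [MOD m])
    (hlab_inf : ∀ 𝔫 : Ideal (chart R ({x⁻¹} : Set F)), 𝔫.IsMaximal →
      algebraMap R (chart R ({x⁻¹} : Set F)) w ∈ 𝔫 →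
      ∃ V₁ ∈ 𝒱, PassThrough (chart R ({x⁻¹} : Set F)) 𝔫 V₁ ∧
        ∀ W ∈ 𝒱, PassThrough (chart R ({x⁻¹} : Set F)) 𝔫 W →
          ∃ c : ℕ, IsLabelAt (chart R ({x⁻¹} : Set F)) 𝔫 V₁ W m ζ f c ∧
            c + κ W ≡ κ V₁ [MOD m]) :
    ∃ g : F, g ^ m = f := by
  have hinjRE : Function.Injective (algebraMap R E) := IsFractionRing.injective R E
  have hinjRF : Function.Injective (algebraMap R F) := by
    rw [IsScalarTower.algebraMap_eq R E F]
    exact (algebraMap E F).injective.comp hinjRE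
  have hwF0 : algebraMap R F w ≠ 0 := fun h => hw.ne_zero (hinjRF (by rw [h, map_zero]))
  have hxR : Transcendental R x := hx.restrictScalars hinjRE
  haveI := hfin
  haveI : FiniteDimensional (Fermat.Agent.S18.H138.baseField R x) F :=
    Fermat.Agent.A2.H313.finiteDimensional_baseField_of_adjoin E x
  have hζ1 : ζ ^ m = 1 := hζ.pow_eq_one
  -- `m` is invertible in `R`
  obtain ⟨mi, hmi⟩ : ∃ mi : R, (m : R) * mi = 1 := by
    have hu : IsUnit (m : R) := by
      by_contra hnu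
      have hmem : (m : R) ∈ IsLocalRing.maximalIdeal R := (IsLocalRing.mem_maximalIdeal _).2 hnu
      have hcop : Nat.Coprime q m := (Nat.Prime.coprime_iff_not_dvd hq).2 hqm
      have h1 : ((Nat.gcd q m : ℕ) : R) ∈ IsLocalRing.maximalIdeal R := by
        have hb : ((Nat.gcd q m : ℕ) : ℤ) = q * Nat.gcdA q m + m * Nat.gcdB q m :=
          Nat.gcd_eq_gcd_ab q m
        have hc : ((Nat.gcd q m : ℕ) : R) = (q : R) * ((Nat.gcdA q m : ℤ) : R) +
            (m : R) * ((Nat.gcdB q m : ℤ) : R) := by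
          have := congrArg (fun z : ℤ => (z : R)) hb
          simpa using this
        rw [hc]
        exact Ideal.add_mem _ (Ideal.mul_mem_right _ _ hqR) (Ideal.mul_mem_right _ _ hmem)
      rw [hcop, Nat.cast_one] at h1
      exact (IsLocalRing.mem_maximalIdeal _).1 h1 isUnit_one
    obtain ⟨v, hv⟩ := hu
    exact ⟨(v⁻¹ : Rˣ), by rw [← hv, Units.mul_inv]⟩
  have hcl_fin : ∀ V ∈ 𝒱, ChartLe (chart R ({x} : Set F)) V := fun V hV =>
    chartLe_chart (hR𝒱 V hV) (fun s hs => by rw [Set.mem_singleton_iff.1 hs]; exact (hx𝒱 V hV).1)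
  have hcl_inf : ∀ V ∈ 𝒱, ChartLe (chart R ({x⁻¹} : Set F)) V := fun V hV =>
    chartLe_chart (hR𝒱 V hV) (fun s hs => by rw [Set.mem_singleton_iff.1 hs]; exact (hx𝒱 V hV).2)
  refine Fermat.Agent.S36.H193.exists_pow_eq_of_base_set E w hw hxR hm hmi hζ hf0 𝒱 h𝒱 hsplit
    V₀ hRV₀ hwV₀ hsplit₀ ?_ hdisc κ ?_ ?_
  · intro a ha
    refine ⟨a * (algebraMap R F w)⁻¹, hunif a ha, ?_⟩
    rw [mul_comm a, ← mul_assoc, mul_inv_cancel₀ hwF0, one_mul]
  · intro 𝔫 h𝔫 hw𝔫
    haveI := h𝔫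
    obtain ⟨V₁, hV₁, hth₁, hlab⟩ := hlab_fin 𝔫 h𝔫 hw𝔫
    refine basePureValuesAt_of_labelAt hcl_fin hm hζ1
      (labelAt_of_pairwise hm (fun z hz => chart_root_mem' hm hz)
        (rat_of_mem w hw x 𝔫 h𝔫 hw𝔫) hcl_fin hζ1 κ hV₁ hth₁ hlab)
  · intro 𝔫 h𝔫 hw𝔫
    haveI := h𝔫
    obtain ⟨V₁, hV₁, hth₁, hlab⟩ := hlab_inf 𝔫 h𝔫 hw𝔫
    refine basePureValuesAt_of_labelAt hcl_inf hm hζ1
      (labelAt_of_pairwise hm (fun z hz => chart_root_mem' hm hz)
        (rat_of_mem w hw x⁻¹ 𝔫 h𝔫 hw𝔫) hcl_inf hζ1 κ hV₁ hth₁ hlab)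

end Wall

end Fermat.Agent.S59.LoSqC.H193
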