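import Fermat.Agent.S59.LoSqC.H193.LabelCount

/-!
# S59 / cell (C) LO-SQ, leaf LAB (helper193), part 6: THE LABEL MAP at level `Mq` and LAB1-COUNT

Setting: `TwoCtx E w q x m ζ V₁ V₂` (`LabelCount.lean`), `Σ` a finite set which is exactly the set
of the nodes of the finite chart (`IsNodePt`).

* `TwoCtx.exists_label` : a split function with purity data has a label `c < m` at every node;
* `labHom`              : **the label map** `splitPure →* (Σ → ZMod m)` (a homomorphism);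
* `labHom_spec`         : `IsLabelAt … 𝔫 V₁ V₂ m ζ u c ↔ (c : ZMod m) = labHom u 𝔫`;
* `mem_powSubgroup_of_labHom_const` : constant labels ⟹ `m`-th power  (**LAB1-INJ**);
* `card_splitPure_le`   : `#(splitPure ⧸ m-th powers) ≤ m ^ (#Σ - 1)`   (**LAB1-COUNT**).
-/

set_option autoImplicit false
set_option linter.unusedSectionVars false
set_option linter.unusedVariables false
set_option linter.style.haveILetI false

namespace Fermat.Agent.S59.LoSqC.H193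

open Fermat.Agent.S36.H630
open Fermat.Agent.S18.H138 (chart)
open Fermat.Agent.A2.H12 (IsSheet)
open Polynomial

universe u

section Two

variable {R : Type u} [CommRing R] [IsDomain R] [IsDiscreteValuationRing R]
  [HenselianLocalRing R] [IsAlgClosed (IsLocalRing.ResidueField R)] [IsIntegrallyClosed R[X]]
variable (E : Type u) [Field E] [CharZero E] [Algebra R E] [IsFractionRing R E]
variable {F : Type u} [Field F] [Algebra E F] [Algebra R F] [IsScalarTower R E F]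
variable {w : R} {q : ℕ} {x : F} {m : ℕ} {ζ : R} {V₁ V₂ : ValuationSubring F}

/-- `m` is invertible in `R`. -/
theorem exists_inv_of_not_dvd (hq : q.Prime) (hqR : (q : R) ∈ IsLocalRing.maximalIdeal R)
    (hqm : ¬ q ∣ m) : ∃ mi : R, (m : R) * mi = 1 := by
  have hu : IsUnit (m : R) := by
    by_contra hnu
    have hmem : (m : R) ∈ IsLocalRing.maximalIdeal R := (IsLocalRing.mem_maximalIdeal _).2 hnu
    have hcop : Nat.Coprime q m := (Nat.Prime.coprime_iff_not_dvd hq).2 hqm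
    have h1 : ((Nat.gcd q m : ℕ) : R) ∈ IsLocalRing.maximalIdeal R := by
      have hb : ((Nat.gcd q m : ℕ) : ℤ) = q * Nat.gcdA q m + m * Nat.gcdB q m :=
        Nat.gcd_eq_gcd_ab q m
      have hc : ((Nat.gcd q m : ℕ) : R) = (q : R) * ((Nat.gcdA q m : ℤ) : R) +
          (m : R) * ((Nat.gcdB q m : ℤ) : R) := by
        have := congrArg (fun z : ℤ => (z : R)) hb
        simpa using this
      rw [hc]
      exact Ideal.add_mem _ (Ideal.mul_mem_right _ _ hqR) (Ideal.mul_mem_right _ _ hmem)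
    rw [hcop, Nat.cast_one] at h1
    exact (IsLocalRing.mem_maximalIdeal _).1 h1 isUnit_one
  obtain ⟨v, hv⟩ := hu
  exact ⟨(v⁻¹ : Rˣ), by rw [← hv, Units.mul_inv]⟩

include E in
theorem TwoCtx.injRF (ctx : TwoCtx E w q x m ζ V₁ V₂) :
    Function.Injective (algebraMap R F) := by
  have hinjRE : Function.Injective (algebraMap R E) := IsFractionRing.injective R E
  rw [IsScalarTower.algebraMap_eq R E F]
  exact (algebraMap E F).injective.comp hinjRE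

include E in
/-- `ζ` has exact order `m` at every closed point of the finite chart. -/
theorem TwoCtx.prim (ctx : TwoCtx E w q x m ζ V₁ V₂) (𝔫 : Ideal (chart R ({x} : Set F)))
    [𝔫.IsMaximal] : IsPrimitiveRoot (resAt 𝔫 ζ) m := by
  obtain ⟨mi, hmi⟩ : ∃ mi : R, (m : R) * mi = 1 := exists_inv_of_not_dvd ctx.hq ctx.hqR ctx.hqm
  exact isPrimitiveRoot_resAt (ctx.injRF E) 𝔫 ctx.hm hmi ctx.hζ

include E in
theorem TwoCtx.chartLe₁ (ctx : TwoCtx E w q x m ζ V₁ V₂) :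
    ChartLe (chart R ({x} : Set F)) V₁ :=
  chartLe_chart ctx.hR₁ (fun s hs => by rw [Set.mem_singleton_iff.1 hs]; exact ctx.hx₁.1)

include E in
theorem TwoCtx.chartLe₂ (ctx : TwoCtx E w q x m ζ V₁ V₂) :
    ChartLe (chart R ({x} : Set F)) V₂ :=
  chartLe_chart ctx.hR₂ (fun s hs => by rw [Set.mem_singleton_iff.1 hs]; exact ctx.hx₂.1)

include E in
/-- **Existence of the label at a node.** -/
theorem TwoCtx.exists_label (ctx : TwoCtx E w q x m ζ V₁ V₂) {u : F}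
    (hu : IsSplitPure w x m V₁ V₂ u) {𝔫 : Ideal (chart R ({x} : Set F))}
    (h𝔫 : IsNodePt w (chart R ({x} : Set F)) V₁ V₂ 𝔫) :
    ∃ c : ℕ, c < m ∧ IsLabelAt (chart R ({x} : Set F)) 𝔫 V₁ V₂ m ζ u c := by
  haveI := h𝔫.1.1
  obtain ⟨d, hd⟩ := hu.2.2.1 𝔫 h𝔫.1
  exact exists_isLabelAt ctx.hm (rat_of_mem w ctx.hw x 𝔫 h𝔫.1.1 h𝔫.1.2)
    (ctx.chartLe₁ E) h𝔫.2.1 (ctx.chartLe₂ E) h𝔫.2.2 ctx.hnf₁ ctx.hnf₂ (ctx.prim E 𝔫)
    hu.1 hu.2.1 hd

section Map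

variable (Sg : Finset (Ideal (chart R ({x} : Set F))))

include E in
/-- Uniqueness of the label at a node, in `ZMod m`. -/
theorem TwoCtx.label_unique (ctx : TwoCtx E w q x m ζ V₁ V₂) {u : F}
    {𝔫 : Ideal (chart R ({x} : Set F))} (h𝔫 : IsNodePt w (chart R ({x} : Set F)) V₁ V₂ 𝔫)
    {c c' : ℕ} (h : IsLabelAt (chart R ({x} : Set F)) 𝔫 V₁ V₂ m ζ u c)
    (h' : IsLabelAt (chart R ({x} : Set F)) 𝔫 V₁ V₂ m ζ u c') :
    (c : ZMod m) = (c' : ZMod m) := by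
  haveI := h𝔫.1.1
  rw [ZMod.natCast_eq_natCast_iff]
  exact h.unique ctx.hm (fun z hz => chart_root_mem' ctx.hm hz)
    (rat_of_mem w ctx.hw x 𝔫 h𝔫.1.1 h𝔫.1.2) (ctx.chartLe₁ E) h𝔫.2.1 (ctx.chartLe₂ E) h𝔫.2.2
    (ctx.prim E 𝔫) h'

/-- **The label of a split function at a node** (a choice; see `labFun_spec`). -/
noncomputable def labFun (ctx : TwoCtx E w q x m ζ V₁ V₂)
    (hSg : ∀ 𝔫 ∈ Sg, IsNodePt w (chart R ({x} : Set F)) V₁ V₂ 𝔫)
    (u : splitPure w x m V₁ V₂) (𝔫 : Sg) : ZMod m :=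
  ((Classical.choose (ctx.exists_label E u.2 (hSg 𝔫.1 𝔫.2)) : ℕ) : ZMod m)

theorem labFun_isLabelAt (ctx : TwoCtx E w q x m ζ V₁ V₂)
    (hSg : ∀ 𝔫 ∈ Sg, IsNodePt w (chart R ({x} : Set F)) V₁ V₂ 𝔫)
    (u : splitPure w x m V₁ V₂) (𝔫 : Sg) :
    IsLabelAt (chart R ({x} : Set F)) 𝔫.1 V₁ V₂ m ζ ((u : Fˣ) : F)
      (Classical.choose (ctx.exists_label E u.2 (hSg 𝔫.1 𝔫.2))) :=
  (Classical.choose_spec (ctx.exists_label E u.2 (hSg 𝔫.1 𝔫.2))).2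

/-- **Characterisation of the label map.** -/
theorem labFun_spec (ctx : TwoCtx E w q x m ζ V₁ V₂)
    (hSg : ∀ 𝔫 ∈ Sg, IsNodePt w (chart R ({x} : Set F)) V₁ V₂ 𝔫)
    (u : splitPure w x m V₁ V₂) (𝔫 : Sg) (c : ℕ) :
    IsLabelAt (chart R ({x} : Set F)) 𝔫.1 V₁ V₂ m ζ ((u : Fˣ) : F) c ↔
      (c : ZMod m) = labFun E Sg ctx hSg u 𝔫 := by
  constructor
  · intro h
    exact ctx.label_unique E (hSg 𝔫.1 𝔫.2) h (labFun_isLabelAt E Sg ctx hSg u 𝔫)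
  · intro h
    refine (labFun_isLabelAt E Sg ctx hSg u 𝔫).congr ctx.hζ.pow_eq_one ?_
    rw [← ZMod.natCast_eq_natCast_iff]
    exact h.symm

/-- **Additivity of the label map.** -/
theorem labFun_mul (ctx : TwoCtx E w q x m ζ V₁ V₂)
    (hSg : ∀ 𝔫 ∈ Sg, IsNodePt w (chart R ({x} : Set F)) V₁ V₂ 𝔫)
    (u u' : splitPure w x m V₁ V₂) (𝔫 : Sg) :
    labFun E Sg ctx hSg (u * u') 𝔫 = labFun E Sg ctx hSg u 𝔫 + labFun E Sg ctx hSg u' 𝔫 := by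
  have h𝔫 := hSg 𝔫.1 𝔫.2
  haveI := h𝔫.1.1
  haveI : 𝔫.1.IsPrime := h𝔫.1.1.isPrime
  have h1 := labFun_isLabelAt E Sg ctx hSg u 𝔫
  have h2 := labFun_isLabelAt E Sg ctx hSg u' 𝔫
  have h3 := h1.mul (ctx.chartLe₁ E) h𝔫.2.1 (ctx.chartLe₂ E) h𝔫.2.2 h2
  have h4 : (((u : Fˣ) : F) * ((u' : Fˣ) : F)) = (((u * u' : splitPure w x m V₁ V₂) : Fˣ) : F) := by
    simp
  rw [h4] at h3
  have h5 := (labFun_spec E Sg ctx hSg (u * u') 𝔫 _).1 h3
  rw [← h5, Nat.cast_add]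
  rfl

/-- **The label map**, as a homomorphism. -/
noncomputable def labHom (ctx : TwoCtx E w q x m ζ V₁ V₂)
    (hSg : ∀ 𝔫 ∈ Sg, IsNodePt w (chart R ({x} : Set F)) V₁ V₂ 𝔫) :
    splitPure w x m V₁ V₂ →* Multiplicative (Sg → ZMod m) :=
  MonoidHom.mk' (fun u => Multiplicative.ofAdd (labFun E Sg ctx hSg u)) (by
    intro a b
    rw [← ofAdd_add]
    apply congrArg Multiplicative.ofAdd
    funext 𝔫
    exact labFun_mul E Sg ctx hSg a b 𝔫)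

theorem labHom_apply (ctx : TwoCtx E w q x m ζ V₁ V₂)
    (hSg : ∀ 𝔫 ∈ Sg, IsNodePt w (chart R ({x} : Set F)) V₁ V₂ 𝔫)
    (u : splitPure w x m V₁ V₂) (𝔫 : Sg) :
    Multiplicative.toAdd (labHom E Sg ctx hSg u) 𝔫 = labFun E Sg ctx hSg u 𝔫 := rfl

/-- **LAB1-INJ**: a split function whose labels at the nodes are constant is an `m`-th power. -/
theorem mem_powSubgroup_of_labFun_const (ctx : TwoCtx E w q x m ζ V₁ V₂)
    (hSg : ∀ 𝔫 ∈ Sg, IsNodePt w (chart R ({x} : Set F)) V₁ V₂ 𝔫)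
    (hall : ∀ 𝔫, IsNodePt w (chart R ({x} : Set F)) V₁ V₂ 𝔫 → 𝔫 ∈ Sg)
    (u : splitPure w x m V₁ V₂) (c₀ : ZMod m) (hc : ∀ 𝔫 : Sg, labFun E Sg ctx hSg u 𝔫 = c₀) :
    (u : Fˣ) ∈ powSubgroup F m := by
  haveI : NeZero m := ⟨ctx.hm.ne'⟩
  have hu := u.2
  have hlab : ∀ 𝔫 : Ideal (chart R ({x} : Set F)), 𝔫.IsMaximal →
      algebraMap R (chart R ({x} : Set F)) w ∈ 𝔫 →
      PassThrough (chart R ({x} : Set F)) 𝔫 V₁ → PassThrough (chart R ({x} : Set F)) 𝔫 V₂ →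
      IsLabelAt (chart R ({x} : Set F)) 𝔫 V₁ V₂ m ζ ((u : Fˣ) : F) c₀.val := by
    intro 𝔫 h1 h2 h3 h4
    have hmem : 𝔫 ∈ Sg := hall 𝔫 ⟨⟨h1, h2⟩, h3, h4⟩
    refine (labFun_spec E Sg ctx hSg u ⟨𝔫, hmem⟩ c₀.val).2 ?_
    rw [hc ⟨𝔫, hmem⟩, ZMod.natCast_zmod_val]
  obtain ⟨g, hg⟩ := exists_pow_eq_of_const_labels E w ctx.hw q ctx.hq ctx.hqR ctx.hx ctx.hfin
    ctx.hm ctx.hqm ctx.hζ (Units.ne_zero (u : Fˣ)) V₁ V₂ ctx.hne ctx.hsheets ctx.hR₁ ctx.hR₂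
    ctx.hx₁ ctx.hx₂ hu.1 hu.2.1 ctx.hwV₁ ctx.hunif ctx.hdisc ctx.hnf₁ ctx.hnf₂ ctx.hni₁ ctx.hni₂
    ctx.hcusp (fun 𝔫 h1 h2 => hu.2.2.1 𝔫 ⟨h1, h2⟩) (fun 𝔫 h1 h2 => hu.2.2.2 𝔫 ⟨h1, h2⟩)
    c₀.val hlab
  have hg0 : g ≠ 0 := by
    rintro rfl
    rw [zero_pow ctx.hm.ne'] at hg
    exact Units.ne_zero (u : Fˣ) hg.symm
  refine ⟨Units.mk0 g hg0, ?_⟩
  apply Units.ext
  simp only [powMonoidHom_apply, Units.val_pow_eq_pow_val, Units.val_mk0]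
  exact hg

/-- **LAB1-COUNT**: the split functions with purity data, modulo `m`-th powers, form a group of
order at most `m ^ (#Σ - 1)`, `Σ` = the set of the nodes. -/
theorem card_splitPure_le (ctx : TwoCtx E w q x m ζ V₁ V₂)
    (hSg : ∀ 𝔫 ∈ Sg, IsNodePt w (chart R ({x} : Set F)) V₁ V₂ 𝔫)
    (hall : ∀ 𝔫, IsNodePt w (chart R ({x} : Set F)) V₁ V₂ 𝔫 → 𝔫 ∈ Sg) :
    Nat.card (splitPure w x m V₁ V₂ ⧸ (powSubgroup F m).subgroupOf (splitPure w x m V₁ V₂))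
      ≤ m ^ (Sg.card - 1) := by
  haveI : NeZero m := ⟨ctx.hm.ne'⟩
  have h := card_quot_le_of_labels ((powSubgroup F m).subgroupOf (splitPure w x m V₁ V₂)) m
    (labHom E Sg ctx hSg) (by
      rintro u ⟨c₀, hc⟩
      rw [Subgroup.mem_subgroupOf]
      exact mem_powSubgroup_of_labFun_const E Sg ctx hSg hall u c₀ hc)
  rwa [Fintype.card_coe] at h

end Map

end Two

end Fermat.Agent.S59.LoSqC.H193
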