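import Fermat.Agent.S59.LoSqC.H193.LabelMap
import Fermat.Agent.S35.H253.NormRed2
import Fermat.Agent.A2.Spec

/-!
# S59 / cell (C) LO-SQ, leaf LAB (helper193), part 7: LAB1-SURJ in E-form FROM THE COUNT

Setting of `LabelMap.lean`: `TwoCtx E w q x m ζ V₁ V₂` (level `M q`, two sheets), `Σ` the finite
set of ALL the nodes of the finite chart.

* `splitDiv E w x m V₁ V₂ : Subgroup Fˣ` : the split functions with purity data AND `m ∣ div`
  (the normalised `E`-rational Kummer generators of the toric classes);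
* `exists_labels_of_card_le` (Mathlib only) : a label homomorphism `lab : G → (ι → ZMod m)` with
  "constant labels ⟹ `P`" and `m ^ (#ι - 1) ≤ #(G ⧸ P)` is ONTO modulo constants;
* `TwoCtx.exists_const` : the constant label vectors are labels of `m`-th powers
  (weak approximation for the two sheets);
* `Lab1SurjAt` : the consumer shape (VERBATIM the body of `H630.Lab1SurjE` of helper630's toric
  wall `toricWall630`);
* `lab1SurjAt_of_surj` : "labels onto modulo constants on `splitDiv`" ⟹ `Lab1SurjAt`;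
* **`lab1SurjAt_of_card`** : `m ^ (#Σ - 1) ≤ #(splitDiv ⧸ m-th powers)` ⟹ `Lab1SurjAt`.

So the ONLY input of LAB1-SURJ (E-form) from the count is the lower bound
`m ^ (#Σ - 1) ≤ #(splitDiv ⧸ m-th powers)` (`= #` toric part of `J₀(M q)[m]`, by DESC).
Together with `card_splitPure_le` the count is an equality.
-/

set_option autoImplicit false
set_option linter.unusedSectionVars false
set_option linter.unusedVariables false
set_option linter.style.haveILetI false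

namespace Fermat.Agent.S59.LoSqC.H193

open Fermat.Agent.S36.H630
open Fermat.Agent.S18.H138 (chart)
open Fermat.Agent.A2.H12 (IsSheet)
open Fermat.Agent.A2 (DivisibleDiv)
open Polynomial

universe u

section Abstract

/-- **The abstract surjectivity.**  If "constant labels ⟹ `P`" and the quotient `G ⧸ P` has at
least `m ^ (#ι - 1)` elements, then every vector is a label vector up to a constant. -/
theorem exists_labels_of_card_le {G : Type*} [CommGroup G] (P : Subgroup G) {ι : Type*}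
    [Fintype ι] (m : ℕ) [NeZero m] (lab : G →* Multiplicative (ι → ZMod m))
    (h : ∀ g : G, (∃ c : ZMod m, ∀ i, Multiplicative.toAdd (lab g) i = c) → g ∈ P)
    (hcard : m ^ (Fintype.card ι - 1) ≤ Nat.card (G ⧸ P)) (t : ι → ZMod m) :
    ∃ (g : G) (c₀ : ZMod m), ∀ i, Multiplicative.toAdd (lab g) i = t i + c₀ := by
  classical
  rcases isEmpty_or_nonempty ι with hι | ⟨⟨i₀⟩⟩
  · exact ⟨1, 0, fun i => (hι.false i).elim⟩
  · let ι' := {i : ι // i ≠ i₀}
    let φ : G →* Multiplicative (ι' → ZMod m) :=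
      { toFun := fun g => Multiplicative.ofAdd
          (fun i : ι' => Multiplicative.toAdd (lab g) i.1 - Multiplicative.toAdd (lab g) i₀)
        map_one' := by
          apply congrArg Multiplicative.ofAdd
          funext i
          simp
        map_mul' := by
          intro a b
          rw [← ofAdd_add]
          apply congrArg Multiplicative.ofAdd
          funext i
          simp only [map_mul, toAdd_mul, Pi.add_apply]
          ring }
    have hker : φ.ker ≤ P := by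
      intro g hg
      rw [MonoidHom.mem_ker] at hg
      refine h g ⟨Multiplicative.toAdd (lab g) i₀, fun i => ?_⟩
      by_cases hi : i = i₀
      · rw [hi]
      · have h1 := congrFun (congrArg Multiplicative.toAdd hg) ⟨i, hi⟩
        simp only [φ, MonoidHom.coe_mk, OneHom.coe_mk, toAdd_ofAdd, toAdd_one,
          Pi.zero_apply] at h1
        exact sub_eq_zero.1 h1
    have hinj : Function.Injective (QuotientGroup.kerLift φ) := QuotientGroup.kerLift_injective φ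
    haveI : Finite (Multiplicative (ι' → ZMod m)) := inferInstance
    haveI : Finite (G ⧸ φ.ker) := Finite.of_injective _ hinj
    have h2 : Nat.card (Multiplicative (ι' → ZMod m)) = m ^ (Fintype.card ι - 1) := by
      rw [Nat.card_eq_fintype_card]
      have : Fintype.card (Multiplicative (ι' → ZMod m)) = Fintype.card (ι' → ZMod m) :=
        Fintype.card_congr Multiplicative.toAdd
      have hc : Fintype.card ι' = Fintype.card ι - 1 := by
        show Fintype.card {i : ι // i ≠ i₀} = Fintype.card ι - 1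
        rw [Fintype.card_subtype_compl (fun i => i = i₀)]
        simp
      rw [this, Fintype.card_fun, ZMod.card, hc]
    have hsurj : Function.Surjective (QuotientGroup.map φ.ker P (MonoidHom.id G) hker) := by
      intro y
      obtain ⟨g, rfl⟩ := QuotientGroup.mk_surjective y
      exact ⟨QuotientGroup.mk g, rfl⟩
    have h3 : Nat.card (G ⧸ P) ≤ Nat.card (G ⧸ φ.ker) :=
      Nat.card_le_card_of_surjective _ hsurj
    have hle : Nat.card (Multiplicative (ι' → ZMod m)) ≤ Nat.card (G ⧸ φ.ker) := by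
      rw [h2]
      exact hcard.trans h3
    have hbij : Function.Bijective (QuotientGroup.kerLift φ) :=
      hinj.bijective_of_nat_card_le hle
    obtain ⟨y, hy⟩ := hbij.2 (Multiplicative.ofAdd fun i : ι' => t i.1 - t i₀)
    obtain ⟨g, rfl⟩ := QuotientGroup.mk_surjective y
    have hy' : φ g = Multiplicative.ofAdd fun i : ι' => t i.1 - t i₀ := hy
    refine ⟨g, Multiplicative.toAdd (lab g) i₀ - t i₀, fun i => ?_⟩
    by_cases hi : i = i₀
    · rw [hi]
      ring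
    · have h1 := congrFun (congrArg Multiplicative.toAdd hy') ⟨i, hi⟩
      simp only [φ, MonoidHom.coe_mk, OneHom.coe_mk, toAdd_ofAdd] at h1
      have h4 : Multiplicative.toAdd (lab g) i =
          (Multiplicative.toAdd (lab g) i - Multiplicative.toAdd (lab g) i₀) +
            Multiplicative.toAdd (lab g) i₀ := by ring
      rw [h4, h1]
      ring

end Abstract

section Div

variable (E : Type*) [Field E] {F : Type*} [Field F] [Algebra E F]

theorem divisibleDiv_one193 (m : ℕ) : DivisibleDiv E m (1 : F) := by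
  intro V _ _
  exact ⟨1, 1, one_ne_zero, V.one_mem, by rw [inv_one]; exact V.one_mem, by simp⟩

theorem divisibleDiv_mul193 {m : ℕ} {f g : F} (hf : DivisibleDiv E m f)
    (hg : DivisibleDiv E m g) : DivisibleDiv E m (f * g) := by
  intro V hV hE
  obtain ⟨h₁, u₁, hh₁, hu₁, hu₁', rfl⟩ := hf V hV hE
  obtain ⟨h₂, u₂, hh₂, hu₂, hu₂', rfl⟩ := hg V hV hE
  refine ⟨h₁ * h₂, u₁ * u₂, mul_ne_zero hh₁ hh₂, V.mul_mem _ _ hu₁ hu₂, ?_, ?_⟩
  · rw [mul_inv]
    exact V.mul_mem _ _ hu₁' hu₂'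
  · ring

theorem divisibleDiv_inv193 {m : ℕ} {f : F} (hf : DivisibleDiv E m f) :
    DivisibleDiv E m f⁻¹ := by
  intro V hV hE
  obtain ⟨h₁, u₁, hh₁, hu₁, hu₁', rfl⟩ := hf V hV hE
  refine ⟨h₁⁻¹, u₁⁻¹, inv_ne_zero hh₁, hu₁', ?_, ?_⟩
  · rw [inv_inv]
    exact hu₁
  · rw [mul_inv, inv_pow]

theorem divisibleDiv_pow_self193 (m : ℕ) {g : F} (hg : g ≠ 0) : DivisibleDiv E m (g ^ m) := by
  intro V _ _
  exact ⟨g, 1, hg, V.one_mem, by rw [inv_one]; exact V.one_mem, by simp⟩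

end Div

section Pow

variable {F : Type*} [Field F]

/-- `h ≡ a` with `a ^ m = 1` gives `h ^ m ≡ 1`. -/
theorem pow_sub_one_mem193 (V : ValuationSubring F) {h a : F} (ha : a ∈ V)
    (hha : h - a ∈ V.nonunits) {m : ℕ} (ham : a ^ m = 1) : h ^ m - 1 ∈ V.nonunits := by
  have hh : h ∈ V := by
    have : h = (h - a) + a := by ring
    rw [this]
    exact V.add_mem _ _ (vnu_mem V hha) ha
  have hsum : (∑ i ∈ Finset.range m, h ^ i * a ^ (m - 1 - i)) ∈ V := by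
    apply sum_mem
    intro i _
    exact V.mul_mem _ _ (pow_mem hh i) (pow_mem ha _)
  have e : h ^ m - 1 = (∑ i ∈ Finset.range m, h ^ i * a ^ (m - 1 - i)) * (h - a) := by
    rw [geom_sum₂_mul, ham]
  rw [e]
  exact vnu_mul_left V hha hsum

end Pow

section Two

variable {R : Type u} [CommRing R] [IsDomain R] [IsDiscreteValuationRing R]
  [HenselianLocalRing R] [IsAlgClosed (IsLocalRing.ResidueField R)] [IsIntegrallyClosed R[X]]
variable (E : Type u) [Field E] [CharZero E] [Algebra R E] [IsFractionRing R E]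
variable {F : Type u} [Field F] [Algebra E F] [Algebra R F] [IsScalarTower R E F]
variable {w : R} {q : ℕ} {x : F} {m : ℕ} {ζ : R} {V₁ V₂ : ValuationSubring F}

/-- **The normalised `E`-rational Kummer generators of the toric classes**: split, with purity
data, and `m ∣ div`. -/
def splitDiv (w : R) (x : F) (m : ℕ) (V₁ V₂ : ValuationSubring F) : Subgroup Fˣ where
  carrier := {u | IsSplitPure w x m V₁ V₂ (u : F) ∧ DivisibleDiv E m (u : F)}
  one_mem' := by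
    show IsSplitPure w x m V₁ V₂ ((1 : Fˣ) : F) ∧ DivisibleDiv E m ((1 : Fˣ) : F)
    rw [Units.val_one]
    exact ⟨IsSplitPure.one w x m V₁ V₂, divisibleDiv_one193 E m⟩
  mul_mem' := by
    intro a b ha hb
    show IsSplitPure w x m V₁ V₂ ((a * b : Fˣ) : F) ∧ DivisibleDiv E m ((a * b : Fˣ) : F)
    rw [Units.val_mul]
    exact ⟨IsSplitPure.mul ha.1 hb.1, divisibleDiv_mul193 E ha.2 hb.2⟩
  inv_mem' := by
    intro a ha
    show IsSplitPure w x m V₁ V₂ ((a⁻¹ : Fˣ) : F) ∧ DivisibleDiv E m ((a⁻¹ : Fˣ) : F)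
    rw [Units.val_inv_eq_inv_val]
    exact ⟨IsSplitPure.inv ha.1, divisibleDiv_inv193 E ha.2⟩

theorem mem_splitDiv {u : Fˣ} :
    u ∈ splitDiv E w x m V₁ V₂ ↔ IsSplitPure w x m V₁ V₂ (u : F) ∧ DivisibleDiv E m (u : F) :=
  Iff.rfl

theorem splitDiv_le : splitDiv E w x m V₁ V₂ ≤ splitPure w x m V₁ V₂ := fun _ hu => hu.1

/-- A global `m`-th power `h ^ m` with `h ≡ ζ ^ a` on `V₁` and `h ≡ ζ ^ a'` on `V₂` is split with
purity data. -/
theorem isSplitPure_pow {h : F} (hh : h ≠ 0) (hm : 0 < m) (hζ : ζ ^ m = 1)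
    (hR₁ : ∀ r : R, algebraMap R F r ∈ V₁) (hR₂ : ∀ r : R, algebraMap R F r ∈ V₂) {a a' : ℕ}
    (h₁ : h - algebraMap R F (ζ ^ a) ∈ V₁.nonunits)
    (h₂ : h - algebraMap R F (ζ ^ a') ∈ V₂.nonunits) :
    IsSplitPure w x m V₁ V₂ (h ^ m) := by
  have e : ∀ k : ℕ, (algebraMap R F (ζ ^ k)) ^ m = 1 := by
    intro k
    rw [← map_pow, ← pow_mul, mul_comm, pow_mul, hζ, one_pow, map_one]
  refine ⟨pow_sub_one_mem193 V₁ (hR₁ _) h₁ (e a), pow_sub_one_mem193 V₂ (hR₂ _) h₂ (e a'), ?_, ?_⟩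
  · intro 𝔫 h𝔫
    exact ⟨h⁻¹, IsPureAt.of_pow h𝔫.1.ne_top m hh⟩
  · intro 𝔫 h𝔫
    exact ⟨h⁻¹, IsPureAt.of_pow h𝔫.1.ne_top m hh⟩

include E in
/-- **The constant label vectors are labels of `m`-th powers.** -/
theorem TwoCtx.exists_const (ctx : TwoCtx E w q x m ζ V₁ V₂) (hinc₁ : ¬ V₁ ≤ V₂)
    (hinc₂ : ¬ V₂ ≤ V₁) (k : ℕ) :
    ∃ u : Fˣ, u ∈ splitDiv E w x m V₁ V₂ ∧
      ∀ 𝔫 : Ideal (chart R ({x} : Set F)), IsNodePt w (chart R ({x} : Set F)) V₁ V₂ 𝔫 →
        IsLabelAt (chart R ({x} : Set F)) 𝔫 V₁ V₂ m ζ (u : F) k := by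
  have hb : algebraMap R F (ζ ^ k) - 1 ∈ V₁ := sub_mem (ctx.hR₁ _) V₁.one_mem
  obtain ⟨g, -, hg₁, hg₂⟩ := Fermat.Agent.S35.H253.exists_approx hinc₁ hinc₂ hb
  have h₁ : (1 + g) - algebraMap R F (ζ ^ k) ∈ V₁.nonunits := by
    have e : (1 + g) - algebraMap R F (ζ ^ k) = g - (algebraMap R F (ζ ^ k) - 1) := by ring
    rw [e]
    exact hg₁
  have h₂ : (1 + g) - algebraMap R F (ζ ^ 0) ∈ V₂.nonunits := by
    have e : (1 + g) - algebraMap R F (ζ ^ 0) = g := by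
      rw [pow_zero, map_one]
      ring
    rw [e]
    exact hg₂
  have hh : (1 + g) ≠ 0 := by
    intro h0
    rw [h0, zero_sub, pow_zero, map_one] at h₂
    exact vnu_one_not V₂ (by simpa using vnu_neg V₂ h₂)
  have hpow0 : (1 + g) ^ m ≠ 0 := pow_ne_zero _ hh
  refine ⟨Units.mk0 ((1 + g) ^ m) hpow0, ⟨?_, ?_⟩, ?_⟩
  · show IsSplitPure w x m V₁ V₂ ((1 + g) ^ m)
    exact isSplitPure_pow hh ctx.hm ctx.hζ.pow_eq_one ctx.hR₁ ctx.hR₂ h₁ h₂
  · show DivisibleDiv E m ((1 + g) ^ m)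
    exact divisibleDiv_pow_self193 E m hh
  · intro 𝔫 h𝔫
    haveI := h𝔫.1.1
    haveI : 𝔫.IsPrime := h𝔫.1.1.isPrime
    show IsLabelAt (chart R ({x} : Set F)) 𝔫 V₁ V₂ m ζ ((1 + g) ^ m) k
    exact IsLabelAt.of_pow (ctx.chartLe₁ E) h𝔫.2.1 (ctx.chartLe₂ E) h𝔫.2.2 ctx.hm
      ctx.hζ.pow_eq_one hh h₁ h₂ (by rw [add_zero])

/-- **The consumer shape of LAB1-SURJ, E-form** (VERBATIM the body of helper630's
`H630.Lab1SurjE`, the only input of the toric wall `toricWall630` from level `M q`). -/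
def Lab1SurjAt (E : Type*) [Field E] {R : Type*} [CommRing R] {F' : Type*} [Field F']
    [Algebra R F'] [Algebra E F'] (w : R) (x' : F') (V₁' V₂' : ValuationSubring F') (m : ℕ)
    (ζ : R) : Prop :=
  ∀ lam : Ideal (chart R ({x'} : Set F')) → ℕ,
    ∃ g : F', g ≠ 0 ∧ DivisibleDiv E m g ∧ g - 1 ∈ V₁'.nonunits ∧ g - 1 ∈ V₂'.nonunits ∧
      ∀ n' : Ideal (chart R ({x'} : Set F')), n'.IsMaximal →
        algebraMap R (chart R ({x'} : Set F')) w ∈ n' →
        PassThrough (chart R ({x'} : Set F')) n' V₁' →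
        PassThrough (chart R ({x'} : Set F')) n' V₂' →
        ∃ κ' : ValuationSubring F' → ℕ, ζ ^ κ' V₁' = ζ ^ lam n' ∧ ζ ^ κ' V₂' = 1 ∧
          LabelAt (chart R ({x'} : Set F')) n' {V | V = V₁' ∨ V = V₂'} m g ζ κ'

section Map

variable (Sg : Finset (Ideal (chart R ({x} : Set F))))

include E in
/-- From a label of `u` for the pair `(V₁, V₂)` to the label datum of the colouring
`(V₁ ↦ c, V₂ ↦ 0)`. -/
theorem TwoCtx.labelAt_of_isLabelAt (ctx : TwoCtx E w q x m ζ V₁ V₂) {u : F}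
    (hu : IsSplitPure w x m V₁ V₂ u) {𝔫 : Ideal (chart R ({x} : Set F))}
    (h𝔫 : IsNodePt w (chart R ({x} : Set F)) V₁ V₂ 𝔫) {c : ℕ}
    (hc : IsLabelAt (chart R ({x} : Set F)) 𝔫 V₁ V₂ m ζ u c) :
    ∃ κ' : ValuationSubring F → ℕ, ζ ^ κ' V₁ = ζ ^ c ∧ ζ ^ κ' V₂ = 1 ∧
      LabelAt (chart R ({x} : Set F)) 𝔫 {V | V = V₁ ∨ V = V₂} m u ζ κ' := by
  classical
  haveI := h𝔫.1.1
  have hne : V₂ ≠ V₁ := fun h => ctx.hne h.symm
  refine ⟨fun V => if V = V₁ then c else 0, ?_, ?_, ?_⟩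
  · show ζ ^ (if V₁ = V₁ then c else 0) = ζ ^ c
    rw [if_pos rfl]
  · show ζ ^ (if V₂ = V₁ then c else 0) = 1
    rw [if_neg hne, pow_zero]
  refine labelAt_of_pairwise ctx.hm (fun z hz => chart_root_mem' ctx.hm hz)
    (rat_of_mem w ctx.hw x 𝔫 h𝔫.1.1 h𝔫.1.2) ?_ ctx.hζ.pow_eq_one _
    (show V₁ ∈ {V | V = V₁ ∨ V = V₂} from Or.inl rfl) h𝔫.2.1 ?_
  · rintro V (rfl | rfl)
    · exact ctx.chartLe₁ E
    · exact ctx.chartLe₂ E
  · rintro W (rfl | rfl) hW
    · obtain ⟨d, hd⟩ := hu.2.2.1 𝔫 h𝔫.1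
      refine ⟨0, isLabelAt_self ctx.hm (rat_of_mem w ctx.hw x 𝔫 h𝔫.1.1 h𝔫.1.2)
        (ctx.chartLe₁ E) h𝔫.2.1 ctx.hnf₁ hu.1 hd, ?_⟩
      rw [zero_add]
    · refine ⟨c, hc, ?_⟩
      show c + (if W = V₁ then c else 0) ≡ (if V₁ = V₁ then c else 0) [MOD m]
      rw [if_neg hne, if_pos rfl, add_zero]

include E in
/-- **LAB1-SURJ (E-form) from surjectivity modulo constants.** -/
theorem lab1SurjAt_of_surj (ctx : TwoCtx E w q x m ζ V₁ V₂) (hinc₁ : ¬ V₁ ≤ V₂)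
    (hinc₂ : ¬ V₂ ≤ V₁)
    (hSg : ∀ 𝔫 ∈ Sg, IsNodePt w (chart R ({x} : Set F)) V₁ V₂ 𝔫)
    (hall : ∀ 𝔫, IsNodePt w (chart R ({x} : Set F)) V₁ V₂ 𝔫 → 𝔫 ∈ Sg)
    (hsurj : ∀ t : Sg → ZMod m, ∃ (u : splitPure w x m V₁ V₂) (c₀ : ZMod m),
      (u : Fˣ) ∈ splitDiv E w x m V₁ V₂ ∧ ∀ 𝔫 : Sg, labFun E Sg ctx hSg u 𝔫 = t 𝔫 + c₀) :
    Lab1SurjAt E w x V₁ V₂ m ζ := by
  haveI : NeZero m := ⟨ctx.hm.ne'⟩
  intro lam
  obtain ⟨u, c₀, huD, hu⟩ := hsurj (fun 𝔫 => (lam 𝔫.1 : ZMod m))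
  obtain ⟨u₀, hu₀, hlab₀⟩ := ctx.exists_const E hinc₁ hinc₂ (-c₀).val
  have hprod : IsSplitPure w x m V₁ V₂ (((u : Fˣ) : F) * (u₀ : F)) := IsSplitPure.mul u.2 hu₀.1
  refine ⟨((u : Fˣ) : F) * (u₀ : F), mul_ne_zero (Units.ne_zero _) (Units.ne_zero _),
    divisibleDiv_mul193 E huD.2 hu₀.2, hprod.1, hprod.2.1, ?_⟩
  intro 𝔫 h1 h2 h3 h4
  have h𝔫 : IsNodePt w (chart R ({x} : Set F)) V₁ V₂ 𝔫 := ⟨⟨h1, h2⟩, h3, h4⟩
  have hmem : 𝔫 ∈ Sg := hall 𝔫 h𝔫
  haveI : 𝔫.IsPrime := h1.isPrime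
  -- the label of `u`
  have hl : IsLabelAt (chart R ({x} : Set F)) 𝔫 V₁ V₂ m ζ ((u : Fˣ) : F)
      (labFun E Sg ctx hSg u ⟨𝔫, hmem⟩).val :=
    (labFun_spec E Sg ctx hSg u ⟨𝔫, hmem⟩ _).2 (by rw [ZMod.natCast_zmod_val])
  have hl₀ := hlab₀ 𝔫 h𝔫
  have hmul := hl.mul (ctx.chartLe₁ E) h3 (ctx.chartLe₂ E) h4 hl₀
  have hcongr : IsLabelAt (chart R ({x} : Set F)) 𝔫 V₁ V₂ m ζ (((u : Fˣ) : F) * (u₀ : F))
      (lam 𝔫) := by
    refine hmul.congr ctx.hζ.pow_eq_one ?_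
    rw [← ZMod.natCast_eq_natCast_iff]
    push_cast
    rw [ZMod.natCast_zmod_val, ZMod.natCast_zmod_val, hu ⟨𝔫, hmem⟩]
    ring
  exact ctx.labelAt_of_isLabelAt E hprod h𝔫 hcongr

include E in
/-- **LAB1-SURJ (E-form) FROM THE COUNT**: if the normalised `E`-rational Kummer generators of
the toric classes, modulo `m`-th powers, are at least `m ^ (#Σ - 1)`, then every label vector is
realised. -/
theorem lab1SurjAt_of_card (ctx : TwoCtx E w q x m ζ V₁ V₂) (hinc₁ : ¬ V₁ ≤ V₂)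
    (hinc₂ : ¬ V₂ ≤ V₁)
    (hSg : ∀ 𝔫 ∈ Sg, IsNodePt w (chart R ({x} : Set F)) V₁ V₂ 𝔫)
    (hall : ∀ 𝔫, IsNodePt w (chart R ({x} : Set F)) V₁ V₂ 𝔫 → 𝔫 ∈ Sg)
    (hcard : m ^ (Sg.card - 1) ≤
      Nat.card (splitDiv E w x m V₁ V₂ ⧸ (powSubgroup F m).subgroupOf (splitDiv E w x m V₁ V₂))) :
    Lab1SurjAt E w x V₁ V₂ m ζ := by
  haveI : NeZero m := ⟨ctx.hm.ne'⟩
  refine lab1SurjAt_of_surj E Sg ctx hinc₁ hinc₂ hSg hall (fun t => ?_)
  have hcard' : m ^ (Fintype.card Sg - 1) ≤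
      Nat.card (splitDiv E w x m V₁ V₂ ⧸
        (powSubgroup F m).subgroupOf (splitDiv E w x m V₁ V₂)) := by
    rwa [Fintype.card_coe]
  obtain ⟨g, c₀, hg⟩ := exists_labels_of_card_le
    ((powSubgroup F m).subgroupOf (splitDiv E w x m V₁ V₂)) m
    ((labHom E Sg ctx hSg).comp (Subgroup.inclusion (splitDiv_le E)))
    (by
      rintro u ⟨c, hc⟩
      rw [Subgroup.mem_subgroupOf]
      exact mem_powSubgroup_of_labFun_const E Sg ctx hSg hall
        (Subgroup.inclusion (splitDiv_le E) u) c hc)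
    hcard' t
  exact ⟨Subgroup.inclusion (splitDiv_le E) g, c₀, g.2, hg⟩

end Map

end Two

end Fermat.Agent.S59.LoSqC.H193
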