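import Fermat.Agent.S59.LoSqC.H193.LabelDef

/-!
# S59 / cell (C) LO-SQ, leaf LAB (helper193), part 2: uniqueness, transitivity, existence

Setting of `LabelDef.lean`.  Standing hypotheses on the chart `B` and the closed point `n`:

* `hroot : ∀ z, z ^ m ∈ B → z ∈ B`  (`B` is integrally closed in `F`; for charts:
  `H630.chart_root_mem`),
* `hrat : ∀ b : B, ∃ r : R, b - r ∈ n`  (`n` is a rational point; `H630.rat_chart`).

Results:

* `IsPureAt.exists_ratio` : two purity data `d`, `d₁` of `u` at `n` differ by a unit of `B_n`: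
  there is a constant `θ`, a unit at `n`, with `val_W d₁ = val_W d · θ` along EVERY sheet `W`
  through `n`;
* `IsLabelAt.of_values` : the label can be read off from ANY purity datum with values;
* `IsLabelAt.unique_res`, `IsLabelAt.unique` : the label is unique modulo `m`;
* `IsLabelAt.trans` : `c(V, V'') = c(V, V') + c(V', V'')`;
* `exists_isLabelAt` : existence of a label `c < m` for `u ≡ 1` on `V`, `V'` with a purity
  datum at `n` (components normal along `V`, `V'`).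
-/

set_option autoImplicit false
set_option linter.unusedSectionVars false
set_option linter.unusedVariables false
set_option linter.style.haveILetI false

namespace Fermat.Agent.S59.LoSqC.H193

open Fermat.Agent.S36.H630

variable {R : Type*} [CommRing R] {F : Type*} [Field F] [Algebra R F]
variable {B : Subalgebra R F} {n : Ideal B}

/-- The value of an element of the chart along any sheet is its residue at `n`. -/
theorem valAt_coe (V : ValuationSubring F) (hn : n ≠ ⊤) {e : B} {ε : R}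
    (hε : e - algebraMap R B ε ∈ n) : ValAt B n V (e : F) ε := by
  refine ValAt.of_frac (a := e) (b := 1) ?_ ?_ ?_
  · exact fun h => hn ((Ideal.eq_top_iff_one n).2 h)
  · simp
  · simpa using hε

/-- A constant `θ` with `e ≡ θ b` modulo `n`, for `b ∉ n` (rational closed point). -/
theorem exists_const_ratio [hn : n.IsMaximal] (hrat : ∀ b : B, ∃ r : R, b - algebraMap R B r ∈ n)
    (e : B) {b : B} (hb : b ∉ n) : ∃ θ : R, e - algebraMap R B θ * b ∈ n := by
  obtain ⟨b', i, hi, hbi⟩ := hn.exists_inv hb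
  obtain ⟨θ, hθ⟩ := hrat (e * b')
  refine ⟨θ, ?_⟩
  have : e - algebraMap R B θ * b = (e * b' - algebraMap R B θ) * b + e * i := by
    have h6 : b' * b + i - 1 = 0 := by rw [hbi, sub_self]
    linear_combination (-e) * h6
  rw [this]
  exact n.add_mem (n.mul_mem_right _ hθ) (n.mul_mem_left _ hi)

/-- **Two purity data differ by a unit of `B_n`.** -/
theorem IsPureAt.exists_ratio [hn : n.IsMaximal] {m : ℕ} (hm : 0 < m)
    (hroot : ∀ z : F, z ^ m ∈ B → z ∈ B)
    (hrat : ∀ b : B, ∃ r : R, b - algebraMap R B r ∈ n)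
    {u d d₁ : F} (h : IsPureAt B n m u d) (h₁ : IsPureAt B n m u d₁) :
    ∃ θ : R, algebraMap R B θ ∉ n ∧
      ∀ W : ValuationSubring F, ChartLe B W → PassThrough B n W →
        ∀ ξ : R, ValAt B n W d ξ → ValAt B n W d₁ (ξ * θ) := by
  have hnp : n.IsPrime := hn.isPrime
  have hu0 : u ≠ 0 := h.ne_zero
  obtain ⟨hd, a₀, s₀, ha₀, hs₀, hp⟩ := h
  obtain ⟨hd₁, a₁, s₁, ha₁, hs₁, hp₁⟩ := h₁
  obtain ⟨j, hj⟩ : ∃ j, m = j + 1 := ⟨m - 1, (Nat.sub_add_cancel hm).symm⟩
  -- `z = (a₀ s₁) d₁ / d`,  `z ^ m = (a₀ s₁) ^ (m-1) (a₁ s₀)`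
  have hs₀0 : (s₀ : F) ≠ 0 := by
    intro h0
    apply hs₀
    have : s₀ = 0 := Subtype.ext h0
    rw [this]
    exact n.zero_mem
  have hs₁0 : (s₁ : F) ≠ 0 := by
    intro h0
    apply hs₁
    have : s₁ = 0 := Subtype.ext h0
    rw [this]
    exact n.zero_mem
  have hcross : d₁ ^ m * ((a₀ : F) * (s₁ : F)) = d ^ m * ((a₁ : F) * (s₀ : F)) := by
    rw [← hp, ← hp₁]
    ring
  have hzm : (((a₀ * s₁ : B) : F) * d₁ * d⁻¹) ^ m = (((a₀ * s₁) ^ j * (a₁ * s₀) : B) : F) := by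
    have hdm : d ^ m ≠ 0 := pow_ne_zero _ hd
    push_cast
    have e1 : ((a₀ : F) * (s₁ : F) * d₁ * d⁻¹) ^ m
        = ((a₀ : F) * (s₁ : F)) ^ j * (d₁ ^ m * ((a₀ : F) * (s₁ : F))) * (d ^ m)⁻¹ := by
      rw [mul_pow, mul_pow, inv_pow]
      nth_rewrite 1 [hj]
      rw [pow_succ]
      ring
    rw [e1, hcross]
    field_simp
  obtain ⟨b, hb⟩ : ∃ b : B, (b : F) = ((a₀ * s₁ : B) : F) * d₁ * d⁻¹ := by
    have hmem : ((a₀ * s₁ : B) : F) * d₁ * d⁻¹ ∈ B := by
      apply hroot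
      rw [hzm]
      exact ((a₀ * s₁) ^ j * (a₁ * s₀)).2
    exact ⟨⟨_, hmem⟩, rfl⟩
  have he : a₀ * s₁ ∉ n := fun hmem => (hnp.mem_or_mem hmem).elim ha₀ hs₁
  have he' : a₁ * s₀ ∉ n := fun hmem => (hnp.mem_or_mem hmem).elim ha₁ hs₀
  have hbn : b ∉ n := by
    intro hmem
    have h1 : b ^ m ∈ n := n.pow_mem_of_mem hmem m hm
    have h2 : b ^ m = (a₀ * s₁) ^ j * (a₁ * s₀) := by
      apply Subtype.ext
      push_cast
      rw [hb]
      have := hzm
      push_cast at this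
      exact this
    rw [h2] at h1
    rcases hnp.mem_or_mem h1 with h3 | h3
    · exact he (hnp.mem_of_pow_mem j h3)
    · exact he' h3
  -- `d₁ = (b / (a₀ s₁)) d`
  obtain ⟨θ, hθ⟩ := exists_const_ratio hrat b he
  have hθn : algebraMap R B θ ∉ n := by
    intro hmem
    apply hbn
    have : b = (b - algebraMap R B θ * (a₀ * s₁)) + algebraMap R B θ * (a₀ * s₁) := by ring
    rw [this]
    exact n.add_mem hθ (n.mul_mem_right _ hmem)
  refine ⟨θ, hθn, ?_⟩
  intro W hBW hthW ξ hξ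
  -- `d₁ = d * (b / e)`
  have hfrac : ValAt B n W ((b : F) * ((a₀ * s₁ : B) : F)⁻¹) θ := by
    refine ValAt.of_frac (a := b) (b := a₀ * s₁) he ?_ hθ
    have he0 : ((a₀ * s₁ : B) : F) ≠ 0 := by
      intro h0
      apply he
      have : a₀ * s₁ = 0 := Subtype.ext h0
      rw [this]
      exact n.zero_mem
    field_simp
  have hd₁ : d₁ = d * ((b : F) * ((a₀ * s₁ : B) : F)⁻¹) := by
    have he0 : ((a₀ * s₁ : B) : F) ≠ 0 := by
      intro h0
      apply he
      have : a₀ * s₁ = 0 := Subtype.ext h0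
      rw [this]
      exact n.zero_mem
    rw [hb]
    field_simp
  rw [hd₁]
  exact hξ.mul hBW hthW hfrac

section Label

variable {V V' V'' : ValuationSubring F}

/-- **The label can be read off from any purity datum with values.** -/
theorem IsLabelAt.of_values [hn : n.IsMaximal] {m : ℕ} (hm : 0 < m)
    (hroot : ∀ z : F, z ^ m ∈ B → z ∈ B)
    (hrat : ∀ b : B, ∃ r : R, b - algebraMap R B r ∈ n)
    (hBV : ChartLe B V) (hth : PassThrough B n V)
    (hBV' : ChartLe B V') (hth' : PassThrough B n V') {ζ : R} {u : F} {c : ℕ}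
    (h : IsLabelAt B n V V' m ζ u c) {d₁ : F} (hp₁ : IsPureAt B n m u d₁) {η₁ η₁' : R}
    (hv₁ : ValAt B n V d₁ η₁) (hv₁' : ValAt B n V' d₁ η₁') :
    algebraMap R B (η₁' - η₁ * ζ ^ c) ∈ n := by
  have hnp : n.IsPrime := hn.isPrime
  obtain ⟨d, η, η', hp, hη, hv, hv', hl⟩ := h
  obtain ⟨θ, hθ, hθv⟩ := hp.exists_ratio hm hroot hrat hp₁
  have h1 := (hθv V hBV hth η hv).unique hBV hth hv₁
  have h2 := (hθv V' hBV' hth' η' hv').unique hBV' hth' hv₁'
  have : η₁' - η₁ * ζ ^ c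
      = -(η' * θ - η₁') + (η * θ - η₁) * ζ ^ c + (η' - η * ζ ^ c) * θ := by ring
  rw [this, map_add, map_add, map_neg, map_mul, map_mul]
  exact n.add_mem (n.add_mem (n.neg_mem h2) (n.mul_mem_right _ h1)) (n.mul_mem_right _ hl)

/-- The first value of any purity datum with a label is a unit at `n`. -/
theorem IsLabelAt.unit_of_values [hn : n.IsMaximal] {m : ℕ} (hm : 0 < m)
    (hroot : ∀ z : F, z ^ m ∈ B → z ∈ B)
    (hrat : ∀ b : B, ∃ r : R, b - algebraMap R B r ∈ n)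
    (hBV : ChartLe B V) (hth : PassThrough B n V) {ζ : R} {u : F} {c : ℕ}
    (h : IsLabelAt B n V V' m ζ u c) {d₁ : F} (hp₁ : IsPureAt B n m u d₁) {η₁ : R}
    (hv₁ : ValAt B n V d₁ η₁) : algebraMap R B η₁ ∉ n := by
  have hnp : n.IsPrime := hn.isPrime
  obtain ⟨d, η, η', hp, hη, hv, hv', hl⟩ := h
  obtain ⟨θ, hθ, hθv⟩ := hp.exists_ratio hm hroot hrat hp₁
  have h1 := (hθv V hBV hth η hv).unique hBV hth hv₁
  intro hmem
  have h2 : algebraMap R B (η * θ) ∈ n := by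
    have : algebraMap R B (η * θ) = algebraMap R B (η * θ - η₁) + algebraMap R B η₁ := by
      rw [map_sub]
      ring
    rw [this]
    exact n.add_mem h1 hmem
  rw [map_mul] at h2
  exact (hnp.mem_or_mem h2).elim hη hθ

/-- **Uniqueness of the label**, residue form: `ζ ^ c ≡ ζ ^ c₁` modulo `n`. -/
theorem IsLabelAt.unique_res [hn : n.IsMaximal] {m : ℕ} (hm : 0 < m)
    (hroot : ∀ z : F, z ^ m ∈ B → z ∈ B)
    (hrat : ∀ b : B, ∃ r : R, b - algebraMap R B r ∈ n)
    (hBV : ChartLe B V) (hth : PassThrough B n V)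
    (hBV' : ChartLe B V') (hth' : PassThrough B n V') {ζ : R} {u : F} {c c₁ : ℕ}
    (h : IsLabelAt B n V V' m ζ u c) (h₁ : IsLabelAt B n V V' m ζ u c₁) :
    algebraMap R B (ζ ^ c - ζ ^ c₁) ∈ n := by
  have hnp : n.IsPrime := hn.isPrime
  obtain ⟨d₁, η₁, η₁', hp₁, hη₁, hv₁, hv₁', hl₁⟩ := h₁
  have h2 := h.of_values hm hroot hrat hBV hth hBV' hth' hp₁ hv₁ hv₁'
  -- `η₁ (ζ^c - ζ^c₁) ∈ n`
  have h3 : algebraMap R B η₁ * algebraMap R B (ζ ^ c - ζ ^ c₁) ∈ n := by
    have : algebraMap R B η₁ * algebraMap R B (ζ ^ c - ζ ^ c₁)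
        = algebraMap R B (η₁' - η₁ * ζ ^ c₁) - algebraMap R B (η₁' - η₁ * ζ ^ c) := by
      simp only [map_sub, map_mul]
      ring
    rw [this]
    exact n.sub_mem hl₁ h2
  exact (hnp.mem_or_mem h3).resolve_left hη₁

/-- **Uniqueness of the label modulo `m`**, if `ζ` has exact order `m` modulo `n`. -/
theorem IsLabelAt.unique [hn : n.IsMaximal] {m : ℕ} (hm : 0 < m)
    (hroot : ∀ z : F, z ^ m ∈ B → z ∈ B)
    (hrat : ∀ b : B, ∃ r : R, b - algebraMap R B r ∈ n)
    (hBV : ChartLe B V) (hth : PassThrough B n V)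
    (hBV' : ChartLe B V') (hth' : PassThrough B n V') {ζ : R}
    (hprim : IsPrimitiveRoot (resAt n ζ) m) {u : F} {c c₁ : ℕ}
    (h : IsLabelAt B n V V' m ζ u c) (h₁ : IsLabelAt B n V V' m ζ u c₁) :
    c ≡ c₁ [MOD m] := by
  have h1 := h.unique_res hm hroot hrat hBV hth hBV' hth' h₁
  have h2 : resAt n ζ ^ c = resAt n ζ ^ c₁ := by
    rw [← resAt_pow, ← resAt_pow]
    exact mk_eq_of_sub_mem h1
  have hζm : resAt n ζ ^ m = 1 := hprim.pow_eq_one
  have h3 : resAt n ζ ^ (c % m) = resAt n ζ ^ (c₁ % m) := by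
    have e : ∀ k : ℕ, resAt n ζ ^ (k % m) = resAt n ζ ^ k := by
      intro k
      conv_rhs => rw [← Nat.mod_add_div k m]
      rw [pow_add, pow_mul, hζm, one_pow, mul_one]
    rw [e, e, h2]
  exact hprim.pow_inj (Nat.mod_lt _ hm) (Nat.mod_lt _ hm) h3

/-- **Transitivity**: three sheets through `n`. -/
theorem IsLabelAt.trans [hn : n.IsMaximal] {m : ℕ} (hm : 0 < m)
    (hroot : ∀ z : F, z ^ m ∈ B → z ∈ B)
    (hrat : ∀ b : B, ∃ r : R, b - algebraMap R B r ∈ n)
    (hBV : ChartLe B V) (hth : PassThrough B n V)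
    (hBV' : ChartLe B V') (hth' : PassThrough B n V')
    (hBV'' : ChartLe B V'') (hth'' : PassThrough B n V'') {ζ : R} {u : F} {c c' : ℕ}
    (h : IsLabelAt B n V V' m ζ u c) (h' : IsLabelAt B n V' V'' m ζ u c') :
    IsLabelAt B n V V'' m ζ u (c + c') := by
  have hnp : n.IsPrime := hn.isPrime
  obtain ⟨d, η, η', hp, hη, hv, hv', hl⟩ := h
  obtain ⟨d₁, ξ, ξ', hp₁, hξ, hw, hw', hl₁⟩ := h'
  -- transport the value along `V''` from `d₁` to `d`
  obtain ⟨θ, hθ, hθv⟩ := hp₁.exists_ratio hm hroot hrat hp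
  have hx' : ValAt B n V' d (ξ * θ) := hθv V' hBV' hth' ξ hw
  have hx'' : ValAt B n V'' d (ξ' * θ) := hθv V'' hBV'' hth'' ξ' hw'
  have h1 := hx'.unique hBV' hth' hv'
  refine ⟨d, η, ξ' * θ, hp, hη, hv, hx'', ?_⟩
  have : ξ' * θ - η * ζ ^ (c + c')
      = (ξ' - ξ * ζ ^ c') * θ + (ξ * θ - η') * ζ ^ c' + (η' - η * ζ ^ c) * ζ ^ c' := by
    rw [pow_add]
    ring
  rw [this, map_add, map_add, map_mul, map_mul, map_mul]
  exact n.add_mem (n.add_mem (n.mul_mem_right _ hl₁) (n.mul_mem_right _ h1))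
    (n.mul_mem_right _ hl)

/-- **Existence of the label.** -/
theorem exists_isLabelAt [hn : n.IsMaximal] {m : ℕ} (hm : 0 < m)
    (hrat : ∀ b : B, ∃ r : R, b - algebraMap R B r ∈ n)
    (hBV : ChartLe B V) (hth : PassThrough B n V)
    (hBV' : ChartLe B V') (hth' : PassThrough B n V')
    (hnormal : NormalAlong B V m) (hnormal' : NormalAlong B V' m) {ζ : R}
    (hprim : IsPrimitiveRoot (resAt n ζ) m)
    {u d : F} (hu : u - 1 ∈ V.nonunits) (hu' : u - 1 ∈ V'.nonunits)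
    (hp : IsPureAt B n m u d) : ∃ c : ℕ, c < m ∧ IsLabelAt B n V V' m ζ u c := by
  have hnp : n.IsPrime := hn.isPrime
  have hne : n ≠ ⊤ := hnp.ne_top
  obtain ⟨hd, a₀, s₀, ha₀, hs₀, hpure⟩ := hp
  obtain ⟨η, hη, hv⟩ := exists_valAt_of_pure hrat hBV hth hm hnormal hu ha₀ hs₀ hpure
  obtain ⟨η', hη', hv'⟩ := exists_valAt_of_pure hrat hBV' hth' hm hnormal' hu' ha₀ hs₀ hpure
  obtain ⟨σ, hσ⟩ := hrat s₀
  obtain ⟨α, hα⟩ := hrat a₀
  -- `η ^ m σ ≡ α`
  have key : ∀ (W : ValuationSubring F), ChartLe B W → PassThrough B n W →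
      u - 1 ∈ W.nonunits → ∀ ξ : R, ValAt B n W d ξ →
      algebraMap R B (1 * ξ ^ m * σ - α) ∈ n := by
    intro W hBW hthW huW ξ hξ
    have h1 : ValAt B n W u 1 := by
      refine ValAt.const hne ?_
      rw [map_one]
      exact huW
    have h2 : ValAt B n W (u * d ^ m * (s₀ : F)) (1 * ξ ^ m * σ) :=
      (h1.mul hBW hthW (hξ.pow hBW hthW m)).mul hBW hthW (valAt_coe W hne hσ)
    rw [hpure] at h2
    exact h2.unique hBW hthW (valAt_coe W hne hα)
  have k1 := key V hBV hth hu η hv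
  have k2 := key V' hBV' hth' hu' η' hv'
  -- in the residue field
  let _ : Field (B ⧸ n) := Ideal.Quotient.field n
  have hσ0 : resAt n σ ≠ 0 := by
    apply mk_ne_zero_of_not_mem
    intro hmem
    apply hs₀
    have : s₀ = (s₀ - algebraMap R B σ) + algebraMap R B σ := by ring
    rw [this]
    exact n.add_mem hσ hmem
  have hη0 : resAt n η ≠ 0 := mk_ne_zero_of_not_mem hη
  have e1 : resAt n η ^ m * resAt n σ = resAt n α := by
    have := mk_eq_of_sub_mem k1
    simpa only [resAt, map_mul, map_pow, map_one, one_mul] using this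
  have e2 : resAt n η' ^ m * resAt n σ = resAt n α := by
    have := mk_eq_of_sub_mem k2
    simpa only [resAt, map_mul, map_pow, map_one, one_mul] using this
  have e3 : (resAt n η' * (resAt n η)⁻¹) ^ m = 1 := by
    have h5 : resAt n η' ^ m = resAt n η ^ m := by
      have := e2.trans e1.symm
      exact mul_right_cancel₀ hσ0 this
    rw [mul_pow, h5, inv_pow, mul_inv_cancel₀ (pow_ne_zero _ hη0)]
  haveI : NeZero m := ⟨hm.ne'⟩
  obtain ⟨c, hc, hcz⟩ := hprim.eq_pow_of_pow_eq_one e3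
  refine ⟨c, hc, d, η, η', ⟨hd, a₀, s₀, ha₀, hs₀, hpure⟩, hη, hv, hv', ?_⟩
  apply sub_mem_of_mk_eq
  show resAt n η' = resAt n (η * ζ ^ c)
  rw [resAt_mul, resAt_pow, hcz]
  field_simp

end Label

end Fermat.Agent.S59.LoSqC.H193
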