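import Fermat.Agent.S59.LoSqC.H193.TwoCtxLeaf
import Fermat.Agent.S36.H803.R3Spec

/-!
# S59 / cell (C) LO-SQ, leaf LAB (helper193), part 9: THE NODES AT LEVEL `M q`

Dictionary between the two vocabularies for the nodes of the finite chart of level `M q`:

* `H193.IsNodePt w B V∞ V₀ 𝔫` (label calculus: `𝔫` maximal, `w ∈ 𝔫`, both sheets pass through `𝔫`);
* `S36.H803.IsNode p₁ p₂ 𝔫` (REG / GUB: `𝔫` maximal, `p₁ + p₂ ≤ 𝔫`, `p₁ = B ∩ w V∞`,
  `p₂ = B ∩ w V₀`, `A2.Mod.IsCut`).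

* `r3Hyp_of_std`        : the standing hypotheses `H803.R3Hyp` of the REG / GUB leaves from
  `Mod3.Std` (all inputs on main);
* `exists_components`   : the two components `p₁`, `p₂` for GIVEN `V∞`, `W`;
* `isNodePt_iff_isNode` : the dictionary;
* `exists_nodes_level`  : from a GUB-type bound (`C` bounds every finite set of `H803` nodes of
  every pair of components) the nodes form a `Finset` `Σ` with `#Σ ≤ C`, in the form
  (`hSg`, `hall`) consumed by `labHom`, `card_splitPure_le`, `lab1SurjAt_of_card`;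
* `card_splitPure_level_le`, `lab1SurjAt_level` : LAB1-COUNT and LAB1-SURJ at the concrete
  objects, with the node set of `exists_nodes_level`.
-/

set_option autoImplicit false
set_option linter.style.haveILetI false
set_option linter.unusedSectionVars false
set_option linter.unusedVariables false
set_option synthInstance.maxHeartbeats 400000
set_option maxHeartbeats 1600000

noncomputable section

namespace Fermat.Agent.S59.LoSqC.H193

open ModularCurve Polynomial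
open Fermat.Agent.S18.H138 (chart baseField)
open Fermat.Agent
open Fermat.Agent.S36.H630 (PassThrough)

section Level

variable {P : ValuationSubring A2.Qb} {E : IntermediateField ℚ A2.Qb} {M q : ℕ}
  [NeZero M] [NeZero q] [NeZero (M * q)]

/-- **The standing hypotheses of the REG / GUB leaves**, from `Mod3.Std`. -/
theorem r3Hyp_of_std {w : A2.RE P E} (hS : S36.Mod3.Std P E M q w) :
    S36.H803.R3Hyp P E M q w where
  setting := S36.Mod3.H189.setting_of_std hS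
  good := hS.unram.1
  deg := A2.Mod.H31.deg E M q
  s1 := S35.G.H862.s1 P E M q w
  s2 := A2.Mod.H142.s2 P E M q w
  s3 := S35.G.H862.s3 P E M q w
  vinfM := A2.Mod.H553.vinfExists P E M (NeZero.ne M) hS.unram.1.dvr
  goodRed := fun w' VM hw' hVM =>
    A2.Mod.H216.goodRedHyp_of_dvr P E M hS.q_prime hS.q_not_dvd hS.neat.hasAux.1
      hS.neat.hasAux.2 hS.lies_over hS.unram.1.dvr w' VM hw' hVM

/-- The two components of the finite chart for GIVEN `V∞` and `W`. -/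
theorem exists_components {w : A2.RE P E} (hS : S36.Mod3.Std P E M q w)
    {V : ValuationSubring (A2.Mod.FE E (M * q))} (hV : A2.Mod.IsVinf P E (M * q) V)
    {W : A2.Mod.FE E (M * q) ≃ₐ[E] A2.Mod.FE E (M * q)} (hW : A2.Mod.IsFricke E (M * q) W) :
    ∃ p₁ p₂ : Ideal (S36.H803.Bfin P E M q),
      A2.Mod.IsCut P E (M * q) w V (S36.H803.Bfin P E M q) p₁ ∧
      A2.Mod.IsCut P E (M * q) w (V.comap (W : A2.Mod.FE E (M * q) →+* A2.Mod.FE E (M * q)))
        (S36.H803.Bfin P E M q) p₂ ∧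
      S36.H803.IsComponents P E M q w p₁ p₂ := by
  obtain ⟨p₁, p₂, hc₁, hc₂, -⟩ := S35.G.H862.s1 P E M q w (S36.Mod3.H189.setting_of_std hS)
    V W hV hW (A2.Mod.xE E M q) (Or.inl rfl)
  exact ⟨p₁, p₂, hc₁, hc₂, V, W, hV, hW, hc₁, hc₂⟩

/-- **The dictionary for the nodes.** -/
theorem isNodePt_iff_isNode {w : A2.RE P E} (hS : S36.Mod3.Std P E M q w)
    {V : ValuationSubring (A2.Mod.FE E (M * q))} (hV : A2.Mod.IsVinf P E (M * q) V)
    {W : A2.Mod.FE E (M * q) ≃ₐ[E] A2.Mod.FE E (M * q)} (hW : A2.Mod.IsFricke E (M * q) W)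
    {p₁ p₂ : Ideal (S36.H803.Bfin P E M q)}
    (hc₁ : A2.Mod.IsCut P E (M * q) w V (S36.H803.Bfin P E M q) p₁)
    (hc₂ : A2.Mod.IsCut P E (M * q) w
      (V.comap (W : A2.Mod.FE E (M * q) →+* A2.Mod.FE E (M * q))) (S36.H803.Bfin P E M q) p₂)
    (𝔫 : Ideal (S36.H803.Bfin P E M q)) :
    IsNodePt w (S36.H803.Bfin P E M q) V
        (V.comap (W : A2.Mod.FE E (M * q) →+* A2.Mod.FE E (M * q))) 𝔫 ↔
      S36.H803.IsNode P E M q p₁ p₂ 𝔫 := by
  have hSet := S36.Mod3.H189.setting_of_std hS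
  haveI : IsDiscreteValuationRing (A2.RE P E) := hS.unram.1.dvr
  have hu : A2.H48.IsUnif V (A2.Mod.cE P E (M * q) w) :=
    (A2.Mod.H553.vinfBasic P E w (M * q) (NeZero.ne _) hSet.dvr hSet.unif V hV).1
  have hu' := A2.Mod.H13.isUnif_comap hu W
  have h₁ : ∀ b : S36.H803.Bfin P E M q, b ∈ p₁ ↔ (b : A2.Mod.FE E (M * q)) ∈ V.nonunits :=
    fun b => (hc₁ b).trans (A2.Mod.H13.inW_iff_mem_nonunits hu _)
  have h₂ : ∀ b : S36.H803.Bfin P E M q, b ∈ p₂ ↔ (b : A2.Mod.FE E (M * q)) ∈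
      (V.comap (W : A2.Mod.FE E (M * q) →+* A2.Mod.FE E (M * q))).nonunits :=
    fun b => (hc₂ b).trans (A2.Mod.H13.inW_iff_mem_nonunits hu' _)
  constructor
  · rintro ⟨⟨hmax, -⟩, hp₁, hp₂⟩
    exact ⟨hmax, fun b hb => hp₁ b ((h₁ b).1 hb), fun b hb => hp₂ b ((h₂ b).1 hb)⟩
  · rintro ⟨hmax, hp₁, hp₂⟩
    refine ⟨⟨hmax, ?_⟩, fun b hb => hp₁ ((h₁ b).2 hb), fun b hb => hp₂ ((h₂ b).2 hb)⟩
    apply hp₁
    rw [h₁]
    exact (S36.Mod3.H189.isSheet_vinf hS hV).2.2.1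

/-- **The node set**, from a GUB-type bound. -/
theorem exists_nodes_level {w : A2.RE P E} (hS : S36.Mod3.Std P E M q w)
    {V : ValuationSubring (A2.Mod.FE E (M * q))} (hV : A2.Mod.IsVinf P E (M * q) V)
    {W : A2.Mod.FE E (M * q) ≃ₐ[E] A2.Mod.FE E (M * q)} (hW : A2.Mod.IsFricke E (M * q) W)
    (C : ℕ)
    (hgub : ∀ p₁ p₂ : Ideal (S36.H803.Bfin P E M q), S36.H803.IsComponents P E M q w p₁ p₂ →
      ∀ s : Finset (Ideal (S36.H803.Bfin P E M q)),
        (∀ n ∈ s, S36.H803.IsNode P E M q p₁ p₂ n) → s.card ≤ C) :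
    ∃ Sg : Finset (Ideal (chart (A2.RE P E) ({A2.Mod.xE E M q} : Set (A2.Mod.FE E (M * q))))),
      (∀ 𝔫 ∈ Sg, IsNodePt w (chart (A2.RE P E) ({A2.Mod.xE E M q} : Set (A2.Mod.FE E (M * q))))
        V (V.comap (W : A2.Mod.FE E (M * q) →+* A2.Mod.FE E (M * q))) 𝔫) ∧
      (∀ 𝔫, IsNodePt w (chart (A2.RE P E) ({A2.Mod.xE E M q} : Set (A2.Mod.FE E (M * q))))
        V (V.comap (W : A2.Mod.FE E (M * q) →+* A2.Mod.FE E (M * q))) 𝔫 → 𝔫 ∈ Sg) ∧
      Sg.card ≤ C := by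
  classical
  obtain ⟨p₁, p₂, hc₁, hc₂, hcomp⟩ := exists_components hS hV hW
  have hfin : {n : Ideal (S36.H803.Bfin P E M q) | S36.H803.IsNode P E M q p₁ p₂ n}.Finite := by
    by_contra hinf
    obtain ⟨t, ht, hcard⟩ := Set.Infinite.exists_subset_card_eq hinf (C + 1)
    have := hgub p₁ p₂ hcomp t (fun n hn => ht hn)
    rw [hcard] at this
    omega
  refine ⟨hfin.toFinset, fun 𝔫 h𝔫 => ?_, fun 𝔫 h𝔫 => ?_, ?_⟩
  · exact (isNodePt_iff_isNode hS hV hW hc₁ hc₂ 𝔫).2 ((Set.Finite.mem_toFinset hfin).1 h𝔫)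
  · exact (Set.Finite.mem_toFinset hfin).2 ((isNodePt_iff_isNode hS hV hW hc₁ hc₂ 𝔫).1 h𝔫)
  · exact hgub p₁ p₂ hcomp _ (fun n hn => (Set.Finite.mem_toFinset hfin).1 hn)

/-- **LAB1-COUNT at the concrete objects of level `M q`**: the split functions with purity data,
modulo `m`-th powers, are at most `m ^ (#Σ - 1)`. -/
theorem card_splitPure_level_le [IsDiscreteValuationRing (A2.RE P E)]
    [HenselianLocalRing (A2.RE P E)] [IsAlgClosed (IsLocalRing.ResidueField (A2.RE P E))]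
    {w : A2.RE P E} (hS : S36.Mod3.Std P E M q w)
    {V : ValuationSubring (A2.Mod.FE E (M * q))} (hV : A2.Mod.IsVinf P E (M * q) V)
    {W : A2.Mod.FE E (M * q) ≃ₐ[E] A2.Mod.FE E (M * q)} (hW : A2.Mod.IsFricke E (M * q) W)
    {m : ℕ} (hm : 0 < m) (hqm : ¬ q ∣ m) {ζ : A2.RE P E} (hζ : IsPrimitiveRoot ζ m)
    (Sg : Finset (Ideal (chart (A2.RE P E) ({A2.Mod.xE E M q} : Set (A2.Mod.FE E (M * q))))))
    (hSg : ∀ 𝔫 ∈ Sg, IsNodePt w
      (chart (A2.RE P E) ({A2.Mod.xE E M q} : Set (A2.Mod.FE E (M * q))))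
      V (V.comap (W : A2.Mod.FE E (M * q) →+* A2.Mod.FE E (M * q))) 𝔫)
    (hall : ∀ 𝔫, IsNodePt w (chart (A2.RE P E) ({A2.Mod.xE E M q} : Set (A2.Mod.FE E (M * q))))
      V (V.comap (W : A2.Mod.FE E (M * q) →+* A2.Mod.FE E (M * q))) 𝔫 → 𝔫 ∈ Sg) :
    Nat.card (splitPure w (A2.Mod.xE E M q) m V
        (V.comap (W : A2.Mod.FE E (M * q) →+* A2.Mod.FE E (M * q))) ⧸
      (powSubgroup (A2.Mod.FE E (M * q)) m).subgroupOf (splitPure w (A2.Mod.xE E M q) m V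
        (V.comap (W : A2.Mod.FE E (M * q) →+* A2.Mod.FE E (M * q))))) ≤ m ^ (Sg.card - 1) :=
  card_splitPure_le (R := A2.RE P E) E Sg (twoCtx_level hS hV hW hm hqm hζ) hSg hall

/-- **LAB1-SURJ (E-form) at the concrete objects of level `M q`, from the count.** -/
theorem lab1SurjAt_level [IsDiscreteValuationRing (A2.RE P E)]
    [HenselianLocalRing (A2.RE P E)] [IsAlgClosed (IsLocalRing.ResidueField (A2.RE P E))]
    {w : A2.RE P E} (hS : S36.Mod3.Std P E M q w)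
    {V : ValuationSubring (A2.Mod.FE E (M * q))} (hV : A2.Mod.IsVinf P E (M * q) V)
    {W : A2.Mod.FE E (M * q) ≃ₐ[E] A2.Mod.FE E (M * q)} (hW : A2.Mod.IsFricke E (M * q) W)
    {m : ℕ} (hm : 0 < m) (hqm : ¬ q ∣ m) {ζ : A2.RE P E} (hζ : IsPrimitiveRoot ζ m)
    (Sg : Finset (Ideal (chart (A2.RE P E) ({A2.Mod.xE E M q} : Set (A2.Mod.FE E (M * q))))))
    (hSg : ∀ 𝔫 ∈ Sg, IsNodePt w
      (chart (A2.RE P E) ({A2.Mod.xE E M q} : Set (A2.Mod.FE E (M * q))))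
      V (V.comap (W : A2.Mod.FE E (M * q) →+* A2.Mod.FE E (M * q))) 𝔫)
    (hall : ∀ 𝔫, IsNodePt w (chart (A2.RE P E) ({A2.Mod.xE E M q} : Set (A2.Mod.FE E (M * q))))
      V (V.comap (W : A2.Mod.FE E (M * q) →+* A2.Mod.FE E (M * q))) 𝔫 → 𝔫 ∈ Sg)
    (hcard : m ^ (Sg.card - 1) ≤
      Nat.card (splitDiv (R := A2.RE P E) E w (A2.Mod.xE E M q) m V
          (V.comap (W : A2.Mod.FE E (M * q) →+* A2.Mod.FE E (M * q))) ⧸
        (powSubgroup (A2.Mod.FE E (M * q)) m).subgroupOf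
          (splitDiv (R := A2.RE P E) E w (A2.Mod.xE E M q) m V
            (V.comap (W : A2.Mod.FE E (M * q) →+* A2.Mod.FE E (M * q)))))) :
    Lab1SurjAt E w (A2.Mod.xE E M q) V
      (V.comap (W : A2.Mod.FE E (M * q) →+* A2.Mod.FE E (M * q))) m ζ :=
  lab1SurjAt_of_card (R := A2.RE P E) E Sg (twoCtx_level hS hV hW hm hqm hζ)
    (not_le_level hS hV hW).1 (not_le_level hS hV hW).2 hSg hall hcard

end Level

end Fermat.Agent.S59.LoSqC.H193

end
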