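import Fermat.Agent.S59.LoSqC.H193.NodeLevel
import Fermat.Agent.A2.Alg.H609.PuritySmooth

/-!
# S59 / cell (C) LO-SQ, leaf LAB (helper193), part 10: PURE-SPLIT at level `M q`

Concrete objects of level `M q` (`Mod3.Std`, `V∞`, `V₀ = V∞ ∘ W`, `x' = j j_q`).

* `isSplit_level`        : `u ≡ 1` on `V∞` and on `V₀` ⟹ `A2.Alg.IsSplit` for every semistable
  chart cut by `V∞`, `V₀`;
* **`isSplitPure_level`** : `m ∣ div u`, `u ≡ 1` on `V∞`, `V₀` ⟹ `H193.IsSplitPure` (a purity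
  datum at EVERY closed point of the special fibre of both charts), from the purity leaves of
  cell A2 (`A2.Alg.H609.pureAt_of_isSplit`, on main; NO regularity / TH1 is needed for SPLIT
  functions);
* `mem_splitDiv_level`   : hence `u ∈ splitDiv`;
* `splitDiv_level_eq`    : `splitDiv = {u | m ∣ div u, u ≡ 1 on V∞, V₀}` at the concrete objects.
-/

set_option autoImplicit false
set_option linter.style.haveILetI false
set_option linter.unusedSectionVars false
set_option linter.unusedVariables false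
set_option synthInstance.maxHeartbeats 400000
set_option maxHeartbeats 1600000

noncomputable section

namespace Fermat.Agent.S59.LoSqC.H193

open ModularCurve Polynomial
open Fermat.Agent.S18.H138 (chart baseField)
open Fermat.Agent
open Fermat.Agent.S36.H630 (PassThrough)

section Abs

variable {R : Type*} [CommRing R] {F : Type*} [Field F] [Algebra R F]

/-- `u ≡ 1` on `V`, `V` a localisation of `B` with centre `p` ⟹ `u` has constant residue `1`
on the component `p`. -/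
theorem constAt_of_sub_one193 (B : Subalgebra R F) (V : ValuationSubring F) (p : Ideal B)
    (hle : ∀ b ∈ B, b ∈ V)
    (hp : ∀ b : B, b ∈ p ↔ (b : F) ∈ V.nonunits)
    (hfrac : ∀ y ∈ V, ∃ a s : B, (s : F) ∉ V.nonunits ∧ y = a * (s : F)⁻¹)
    {u : F} (hu : u - 1 ∈ V.nonunits) : A2.Alg.ConstAt B p u := by
  have huV : u ∈ V := by
    have e : u = (u - 1) + 1 := by ring
    rw [e]
    exact V.add_mem _ _ (V.nonunits_subset hu) V.one_mem
  obtain ⟨a, s, hs, hua⟩ := hfrac u huV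
  have hs0 : (s : F) ≠ 0 := by
    intro h0
    apply hs
    rw [h0]
    exact V.nonunits.zero_mem
  refine ⟨1, isUnit_one, a, s, fun h => hs ((hp s).1 h), ?_, ?_⟩
  · rw [hp]
    have e : ((a - algebraMap R B 1 * s : B) : F) = (s : F) * (u - 1) := by
      rw [map_one, one_mul]
      push_cast
      rw [hua]
      field_simp
    rw [e]
    exact S36.H630.vnu_mul_left V hu (hle s s.2)
  · rw [hua]
    field_simp

end Abs

section Level

variable {P : ValuationSubring A2.Qb} {E : IntermediateField ℚ A2.Qb} {M q : ℕ}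
  [NeZero M] [NeZero q] [NeZero (M * q)]

/-- **PURE-SPLIT on one chart** (`y = x'` or `y = x'⁻¹`). -/
theorem exists_isPureAt_level {w : A2.RE P E} (hS : S36.Mod3.Std P E M q w)
    {V : ValuationSubring (A2.Mod.FE E (M * q))} (hV : A2.Mod.IsVinf P E (M * q) V)
    {W : A2.Mod.FE E (M * q) ≃ₐ[E] A2.Mod.FE E (M * q)} (hW : A2.Mod.IsFricke E (M * q) W)
    (yM : A2.Mod.FE E M) (y : A2.Mod.FE E (M * q)) (hy : A2.Mod.IsCoordPair E M q yM y)
    {m : ℕ} (hm : 0 < m) {u : A2.Mod.FE E (M * q)} (hdiv : A2.DivisibleDiv E m u)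
    (h₁ : u - 1 ∈ V.nonunits)
    (h₂ : u - 1 ∈ (V.comap (W : A2.Mod.FE E (M * q) →+* A2.Mod.FE E (M * q))).nonunits)
    (𝔫 : Ideal (chart (A2.RE P E) ({y} : Set (A2.Mod.FE E (M * q)))))
    (h𝔫 : IsClosedPt w (chart (A2.RE P E) ({y} : Set (A2.Mod.FE E (M * q)))) 𝔫) :
    ∃ d : A2.Mod.FE E (M * q),
      IsPureAt (chart (A2.RE P E) ({y} : Set (A2.Mod.FE E (M * q)))) 𝔫 m u d := by
  have hSet := S36.Mod3.H189.setting_of_std hS
  haveI : IsDiscreteValuationRing (A2.RE P E) := hS.unram.1.dvr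
  have hAux := hS.neat.hasAux
  obtain ⟨VM, hVM⟩ := A2.Mod.H553.vinfExists P E M hSet.M_ne_zero hSet.dvr
  obtain ⟨hg₁, hg₂⟩ := A2.Mod.H216.goodRedHyp_of_dvr P E M hSet.q_prime hSet.q_not_dvd
    hAux.1 hAux.2 hSet.lies_over hSet.dvr w VM hSet.unif hVM
  have hgood : A2.Mod.GoodRedAt P E M w VM yM := by
    rcases hy with ⟨rfl, -⟩ | ⟨rfl, -⟩
    · exact hg₁
    · exact hg₂
  obtain ⟨c, hc⟩ := S35.G.H862.exists_chart_cutBy hSet (S35.G.H862.s1 P E M q w)
    (A2.Mod.H142.s2 P E M q w) (S35.G.H862.s3 P E M q w) VM V W hVM hV hW yM y hy hgood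
  have hu : A2.H48.IsUnif V (A2.Mod.cE P E (M * q) w) :=
    (A2.Mod.H553.vinfBasic P E w (M * q) (NeZero.ne _) hSet.dvr hSet.unif V hV).1
  have hu' := A2.Mod.H13.isUnif_comap hu W
  obtain ⟨htr, -, hconst⟩ := A2.Mod.H31.deg E M q hS.q_prime hS.q_not_dvd
  have hx0 : A2.Mod.xE E M q ≠ 0 := xE_ne_zero193 hS.q_prime hS.q_not_dvd
  have htry : Transcendental E y := by
    rcases hy with ⟨-, rfl⟩ | ⟨-, rfl⟩
    · exact htr
    · exact S24.FF.transcendental_inv htr
  haveI hfin : FiniteDimensional (IntermediateField.adjoin E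
      ({y} : Set (A2.Mod.FE E (M * q)))) (A2.Mod.FE E (M * q)) :=
    S36.Mod3.H933.finiteDimensional_of_transcendental E (M * q) (NeZero.ne _) _ htry
  haveI : FiniteDimensional (baseField (A2.RE P E) y) (A2.Mod.FE E (M * q)) :=
    A2.H643.finiteDimensional_baseField_of_adjoin (E := E) _
  have hinj : Function.Injective (algebraMap (A2.RE P E) (A2.Mod.FE E (M * q))) := by
    intro a b hab
    have h1 : algebraMap E (A2.Mod.FE E (M * q)) (a : E) =
        algebraMap E (A2.Mod.FE E (M * q)) (b : E) := hab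
    exact Subtype.ext ((algebraMap E (A2.Mod.FE E (M * q))).injective h1)
  have hwp : Prime w := hS.unif.prime
  have htrR : Transcendental (A2.RE P E) y := A2.Mod.H13.transcendental_RE htry
  have hs₁ : A2.H12.IsSheet w y V := by
    rcases hy with ⟨-, rfl⟩ | ⟨-, rfl⟩
    · exact S36.Mod3.H189.isSheet_vinf hS hV
    · exact (S36.H193.isSheet_inv_iff w hx0 V).2 (S36.Mod3.H189.isSheet_vinf hS hV)
  have hs₂ : A2.H12.IsSheet w y
      (V.comap (W : A2.Mod.FE E (M * q) →+* A2.Mod.FE E (M * q))) := by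
    rcases hy with ⟨-, rfl⟩ | ⟨-, rfl⟩
    · exact S36.Mod3.H189.isSheet_vzero hS hV hW
    · exact (S36.H193.isSheet_inv_iff w hx0 _).2 (S36.Mod3.H189.isSheet_vzero hS hV hW)
  have hB : A2.Alg.ChartCtx E w y (A2.Mod.chartAlg P E (M * q) y) :=
    { hw := hS.unif
      hx := htry
      hfin := hfin
      hconst := hconst
      hB := fun _ => Iff.rfl }
  have hsplit : A2.Alg.IsSplit (A2.Mod.chartAlg P E (M * q) y) c u := by
    constructor
    · refine constAt_of_sub_one193 (A2.Mod.chartAlg P E (M * q) y) V c.p₁ hc.le₁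
        (fun b => ?_) (fun z hz => ?_) h₁
      · rw [hc.cut₁]
        exact A2.Mod.H13.inW_iff_mem_nonunits hu _
      · exact (S36.H193.sheet_mem_iff hinj hwp htrR hs₁ z).1 hz
    · refine constAt_of_sub_one193 (A2.Mod.chartAlg P E (M * q) y) _ c.p₂ hc.le₂
        (fun b => ?_) (fun z hz => ?_) h₂
      · rw [hc.cut₂]
        exact A2.Mod.H13.inW_iff_mem_nonunits hu' _
      · exact (S36.H193.sheet_mem_iff hinj hwp htrR hs₂ z).1 hz
  obtain ⟨d, hd0, ⟨a, b, ha, hb, hab⟩, -, -⟩ :=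
    A2.Alg.H609.pureAt_of_isSplit m hm w y (A2.Mod.chartAlg P E (M * q) y) hB c u hdiv hsplit
      𝔫 h𝔫.1.isPrime h𝔫.2
  exact ⟨d, hd0, a, b, ha, hb, hab⟩

/-- **PURE-SPLIT at level `M q`**: a function with `m ∣ div u`, `u ≡ 1` on `V∞` and on `V₀`, has
a purity datum at every closed point of the special fibre of both charts. -/
theorem isSplitPure_level {w : A2.RE P E} (hS : S36.Mod3.Std P E M q w)
    {V : ValuationSubring (A2.Mod.FE E (M * q))} (hV : A2.Mod.IsVinf P E (M * q) V)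
    {W : A2.Mod.FE E (M * q) ≃ₐ[E] A2.Mod.FE E (M * q)} (hW : A2.Mod.IsFricke E (M * q) W)
    {m : ℕ} (hm : 0 < m) {u : A2.Mod.FE E (M * q)} (hdiv : A2.DivisibleDiv E m u)
    (h₁ : u - 1 ∈ V.nonunits)
    (h₂ : u - 1 ∈ (V.comap (W : A2.Mod.FE E (M * q) →+* A2.Mod.FE E (M * q))).nonunits) :
    IsSplitPure w (A2.Mod.xE E M q) m V
      (V.comap (W : A2.Mod.FE E (M * q) →+* A2.Mod.FE E (M * q))) u :=
  ⟨h₁, h₂,
    fun 𝔫 h𝔫 => exists_isPureAt_level hS hV hW _ _ (Or.inl ⟨rfl, rfl⟩) hm hdiv h₁ h₂ 𝔫 h𝔫,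
    fun 𝔫 h𝔫 => exists_isPureAt_level hS hV hW _ _ (Or.inr ⟨rfl, rfl⟩) hm hdiv h₁ h₂ 𝔫 h𝔫⟩

/-- `splitDiv` at the concrete objects: exactly the functions with `m ∣ div u`, `u ≡ 1` on `V∞`
and on `V₀`. -/
theorem mem_splitDiv_level_iff [IsDiscreteValuationRing (A2.RE P E)]
    [HenselianLocalRing (A2.RE P E)] [IsAlgClosed (IsLocalRing.ResidueField (A2.RE P E))]
    {w : A2.RE P E} (hS : S36.Mod3.Std P E M q w)
    {V : ValuationSubring (A2.Mod.FE E (M * q))} (hV : A2.Mod.IsVinf P E (M * q) V)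
    {W : A2.Mod.FE E (M * q) ≃ₐ[E] A2.Mod.FE E (M * q)} (hW : A2.Mod.IsFricke E (M * q) W)
    {m : ℕ} (hm : 0 < m) (u : (A2.Mod.FE E (M * q))ˣ) :
    u ∈ splitDiv (R := A2.RE P E) E w (A2.Mod.xE E M q) m V
        (V.comap (W : A2.Mod.FE E (M * q) →+* A2.Mod.FE E (M * q))) ↔
      A2.DivisibleDiv E m (u : A2.Mod.FE E (M * q)) ∧
        (u : A2.Mod.FE E (M * q)) - 1 ∈ V.nonunits ∧
        (u : A2.Mod.FE E (M * q)) - 1 ∈
          (V.comap (W : A2.Mod.FE E (M * q) →+* A2.Mod.FE E (M * q))).nonunits := by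
  constructor
  · rintro ⟨hsp, hdiv⟩
    exact ⟨hdiv, hsp.1, hsp.2.1⟩
  · rintro ⟨hdiv, h₁, h₂⟩
    exact ⟨isSplitPure_level hS hV hW hm hdiv h₁ h₂, hdiv⟩

end Level

end Fermat.Agent.S59.LoSqC.H193

end
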