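import Fermat.Agent.S59.LoSqC.H193.LabelSurj
import Fermat.Agent.S36.Mod3.H189.LevelNormal
import Fermat.Agent.S36.Mod3.H27.SheetsLow
import Fermat.Agent.S36.H153.CuspSq
import Fermat.Agent.S36.H630.CtxAux
import Fermat.Agent.S36.H972.Mod3Base
import Fermat.Agent.S36.Eng.Skel
import Fermat.Agent.S24.FFDegree

/-!
# S59 / cell (C) LO-SQ, leaf LAB (helper193), part 8: THE CONCRETE `TwoCtx` AT LEVEL `M q`

Objects of `S36.Mod3.Objs` at level `M q` (`q ∤ M`, neat): `R = R_E = P ∩ E` over an unramified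
good level `E`, `F' = F_E(M q)`, `x' = j j_q = A2.Mod.xE E M q`, `V₁' = V∞` (`A2.Mod.IsVinf`),
`V₂' = V₀ = V∞ ∘ W'` (`W'` the Fricke involution).

* `normalAlong_level_inf` : normality of the two components in the chart AT INFINITY
  (`Eng.NormalAlong (chart R {x'⁻¹})`; the finite chart is `S36.Mod3.H189.normalAlong_level`);
* `not_le_level`          : `V∞` and `V₀` are incomparable;
* **`twoCtx_level`**      : `TwoCtx E w q x' m ζ V∞ V₀` for every `m` prime to `q` and every
  primitive `m`-th root of unity `ζ ∈ R`, UNCONDITIONAL (all inputs are on main: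
  A2 S1/S2/S3 + good reduction at level `M`, `H27.sheets_low`, `H153.hnode_level_q`).

Hence the label calculus of `LabelMap.lean` / `LabelSurj.lean` applies verbatim to the concrete
level-`M q` objects of the wall.
-/

set_option autoImplicit false
set_option linter.style.haveILetI false
set_option linter.unusedSectionVars false
set_option linter.unusedVariables false
set_option synthInstance.maxHeartbeats 400000
set_option maxHeartbeats 1600000

noncomputable section

namespace Fermat.Agent.S59.LoSqC.H193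

open ModularCurve Polynomial
open Fermat.Agent.S18.H138 (chart baseField)
open Fermat.Agent

section Level

variable {P : ValuationSubring A2.Qb} {E : IntermediateField ℚ A2.Qb} {M q : ℕ}
  [NeZero M] [NeZero q] [NeZero (M * q)]

theorem xE_ne_zero193 (hq : q.Prime) (hqM : ¬ q ∣ M) : A2.Mod.xE E M q ≠ 0 := by
  intro h0
  have htr := S36.Mod3.H189.transcendental_xE (E := E) hq hqM
  rw [h0] at htr
  exact htr (isAlgebraic_zero)

/-- **Normality of the two components of level `M q` in the chart at infinity.** -/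
theorem normalAlong_level_inf {w : A2.RE P E} (hS : S36.Mod3.Std P E M q w)
    {V : ValuationSubring (A2.Mod.FE E (M * q))} (hV : A2.Mod.IsVinf P E (M * q) V)
    {W : A2.Mod.FE E (M * q) ≃ₐ[E] A2.Mod.FE E (M * q)} (hW : A2.Mod.IsFricke E (M * q) W) :
    S36.Eng.NormalAlong
        (chart (A2.RE P E) ({(A2.Mod.xE E M q)⁻¹} : Set (A2.Mod.FE E (M * q)))) V ∧
      S36.Eng.NormalAlong
        (chart (A2.RE P E) ({(A2.Mod.xE E M q)⁻¹} : Set (A2.Mod.FE E (M * q))))
        (V.comap (W : A2.Mod.FE E (M * q) →+* A2.Mod.FE E (M * q))) := by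
  have hSet := S36.Mod3.H189.setting_of_std hS
  haveI : IsDiscreteValuationRing (A2.RE P E) := hS.unram.1.dvr
  have hAux := hS.neat.hasAux
  obtain ⟨VM, hVM⟩ := A2.Mod.H553.vinfExists P E M hSet.M_ne_zero hSet.dvr
  obtain ⟨-, hg₂⟩ := A2.Mod.H216.goodRedHyp_of_dvr P E M hSet.q_prime hSet.q_not_dvd
    hAux.1 hAux.2 hSet.lies_over hSet.dvr w VM hSet.unif hVM
  obtain ⟨ci, hci⟩ := S35.G.H862.exists_chart_cutBy hSet (S35.G.H862.s1 P E M q w)
    (A2.Mod.H142.s2 P E M q w) (S35.G.H862.s3 P E M q w) VM V W hVM hV hW _ _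
    (Or.inr ⟨rfl, rfl⟩) hg₂
  have hu : A2.H48.IsUnif V (A2.Mod.cE P E (M * q) w) :=
    (A2.Mod.H553.vinfBasic P E w (M * q) (NeZero.ne _) hSet.dvr hSet.unif V hV).1
  have hu' := A2.Mod.H13.isUnif_comap hu W
  have htr : Transcendental E (A2.Mod.xE E M q) :=
    S36.Mod3.H189.transcendental_xE hS.q_prime hS.q_not_dvd
  have htri : Transcendental E (A2.Mod.xE E M q)⁻¹ := S24.FF.transcendental_inv htr
  have hx0 : A2.Mod.xE E M q ≠ 0 := xE_ne_zero193 hS.q_prime hS.q_not_dvd
  haveI : FiniteDimensional (IntermediateField.adjoin E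
      ({(A2.Mod.xE E M q)⁻¹} : Set (A2.Mod.FE E (M * q)))) (A2.Mod.FE E (M * q)) :=
    S36.Mod3.H933.finiteDimensional_of_transcendental E (M * q) (NeZero.ne _) _ htri
  haveI : FiniteDimensional (baseField (A2.RE P E) (A2.Mod.xE E M q)⁻¹) (A2.Mod.FE E (M * q)) :=
    A2.H643.finiteDimensional_baseField_of_adjoin (E := E) _
  have hinj : Function.Injective (algebraMap (A2.RE P E) (A2.Mod.FE E (M * q))) := by
    intro a b hab
    have h1 : algebraMap E (A2.Mod.FE E (M * q)) (a : E) =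
        algebraMap E (A2.Mod.FE E (M * q)) (b : E) := hab
    exact Subtype.ext ((algebraMap E (A2.Mod.FE E (M * q))).injective h1)
  have hwp : Prime w := hS.unif.prime
  have htrR : Transcendental (A2.RE P E) (A2.Mod.xE E M q)⁻¹ :=
    A2.Mod.H13.transcendental_RE htri
  have hs₁ : A2.H12.IsSheet w (A2.Mod.xE E M q)⁻¹ V :=
    (S36.H193.isSheet_inv_iff w hx0 V).2 (S36.Mod3.H189.isSheet_vinf hS hV)
  have hs₂ : A2.H12.IsSheet w (A2.Mod.xE E M q)⁻¹
      (V.comap (W : A2.Mod.FE E (M * q) →+* A2.Mod.FE E (M * q))) :=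
    (S36.H193.isSheet_inv_iff w hx0 _).2 (S36.Mod3.H189.isSheet_vzero hS hV hW)
  have key : S36.Eng.NormalAlong (A2.Mod.chartAlg P E (M * q) (A2.Mod.xE E M q)⁻¹) V ∧
      S36.Eng.NormalAlong (A2.Mod.chartAlg P E (M * q) (A2.Mod.xE E M q)⁻¹)
        (V.comap (W : A2.Mod.FE E (M * q) →+* A2.Mod.FE E (M * q))) := by
    constructor
    · refine @S36.Mod3.H189.normalAlong_of_closed _ _ _ _ _
        (A2.Mod.chartAlg P E (M * q) (A2.Mod.xE E M q)⁻¹)
        V ci.p₁ ci.prime₁ ci.normal₁ hci.le₁ (fun b => ?_) (fun y hy => ?_)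
      · rw [hci.cut₁]
        exact A2.Mod.H13.inW_iff_mem_nonunits hu _
      · exact (S36.H193.sheet_mem_iff hinj hwp htrR hs₁ y).1 hy
    · refine @S36.Mod3.H189.normalAlong_of_closed _ _ _ _ _
        (A2.Mod.chartAlg P E (M * q) (A2.Mod.xE E M q)⁻¹)
        _ ci.p₂ ci.prime₂ ci.normal₂ hci.le₂ (fun b => ?_) (fun y hy => ?_)
      · rw [hci.cut₂]
        exact A2.Mod.H13.inW_iff_mem_nonunits hu' _
      · exact (S36.H193.sheet_mem_iff hinj hwp htrR hs₂ y).1 hy
  exact key

/-- `V∞` and `V₀` of level `M q` are incomparable. -/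
theorem not_le_level {w : A2.RE P E} (hS : S36.Mod3.Std P E M q w)
    {V : ValuationSubring (A2.Mod.FE E (M * q))} (hV : A2.Mod.IsVinf P E (M * q) V)
    {W : A2.Mod.FE E (M * q) ≃ₐ[E] A2.Mod.FE E (M * q)} (hW : A2.Mod.IsFricke E (M * q) W) :
    ¬ V ≤ V.comap (W : A2.Mod.FE E (M * q) →+* A2.Mod.FE E (M * q)) ∧
      ¬ V.comap (W : A2.Mod.FE E (M * q) →+* A2.Mod.FE E (M * q)) ≤ V := by
  have hSet := S36.Mod3.H189.setting_of_std hS
  haveI : IsDiscreteValuationRing (A2.RE P E) := hS.unram.1.dvr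
  have hu : A2.H48.IsUnif V (A2.Mod.cE P E (M * q) w) :=
    (A2.Mod.H553.vinfBasic P E w (M * q) (NeZero.ne _) hSet.dvr hSet.unif V hV).1
  have hu' := A2.Mod.H13.isUnif_comap hu W
  have hne : V.comap (W : A2.Mod.FE E (M * q) →+* A2.Mod.FE E (M * q)) ≠ V :=
    A2.Mod.H553.vzeroNe P E M q w hSet V W hV hW
  exact ⟨A2.H48.not_le_of_ne hu hu' (Ne.symm hne), A2.H48.not_le_of_ne hu' hu hne⟩

/-- **The concrete two-sheet context at level `M q`.** -/
theorem twoCtx_level [hH : HenselianLocalRing (A2.RE P E)] {w : A2.RE P E}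
    (hS : S36.Mod3.Std P E M q w)
    {V : ValuationSubring (A2.Mod.FE E (M * q))} (hV : A2.Mod.IsVinf P E (M * q) V)
    {W : A2.Mod.FE E (M * q) ≃ₐ[E] A2.Mod.FE E (M * q)} (hW : A2.Mod.IsFricke E (M * q) W)
    {m : ℕ} (hm : 0 < m) (hqm : ¬ q ∣ m) {ζ : A2.RE P E} (hζ : IsPrimitiveRoot ζ m) :
    TwoCtx (R := A2.RE P E) E w q (A2.Mod.xE E M q) m ζ V
      (V.comap (W : A2.Mod.FE E (M * q) →+* A2.Mod.FE E (M * q))) := by
  have hSet := S36.Mod3.H189.setting_of_std hS
  haveI : IsDiscreteValuationRing (A2.RE P E) := hS.unram.1.dvr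
  have hu : A2.H48.IsUnif V (A2.Mod.cE P E (M * q) w) :=
    (A2.Mod.H553.vinfBasic P E w (M * q) (NeZero.ne _) hSet.dvr hSet.unif V hV).1
  have htr : Transcendental E (A2.Mod.xE E M q) :=
    S36.Mod3.H189.transcendental_xE hS.q_prime hS.q_not_dvd
  have hs₁ := S36.Mod3.H189.isSheet_vinf hS hV
  have hs₂ := S36.Mod3.H189.isSheet_vzero hS hV hW
  have hX : ∃ i, ¬ w ∣ (X : Polynomial (A2.RE P E)).coeff i :=
    ⟨1, by
      rw [coeff_X_one]
      exact fun h => hS.unif.not_isUnit (isUnit_of_dvd_one h)⟩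
  have hnf := S36.Mod3.H189.normalAlong_level hS hV hW
  have hni := normalAlong_level_inf hS hV hW
  exact
    { hw := hS.unif
      hq := hS.q_prime
      hqR := S36.Eng.natCast_mem_maximalIdeal_RE E hS.lies_over
      hx := htr
      hfin := S36.Mod3.H933.finiteDimensional_of_transcendental E (M * q) (NeZero.ne _) _ htr
      hm := hm
      hqm := hqm
      hζ := hζ
      hne := fun h => A2.Mod.H553.vzeroNe P E M q w hSet V W hV hW h.symm
      hsheets := S36.Mod3.H27.sheets_low hSet hV hW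
      hR₁ := hs₁.1
      hR₂ := hs₂.1
      hx₁ := ⟨hs₁.2.1, by
        have := hs₁.2.2.2 X hX
        rwa [aeval_X] at this⟩
      hx₂ := ⟨hs₂.2.1, by
        have := hs₂.2.2.2 X hX
        rwa [aeval_X] at this⟩
      hwV₁ := hs₁.2.2.1
      hunif := by
        intro a ha
        rcases (ValuationSubring.mem_nonunits_iff_or (A := V)).1 ha with h0 | hinv
        · rw [h0, zero_mul]
          exact V.zero_mem
        · exact hu.gen a (V.nonunits_subset ha) hinv
      hdisc := by
        intro g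
        obtain ⟨k, hk⟩ := S36.H972.arch_vinf hS.unif hV g
        refine ⟨k, ?_⟩
        have e : g * algebraMap (A2.RE P E) (A2.Mod.FE E (M * q)) w ^ k =
            A2.Mod.cE P E (M * q) w ^ k * g := mul_comm _ _
        rw [e]
        exact hk
      hnf₁ := S36.H630.normalAlong_of_monic hnf.1 hm
      hnf₂ := S36.H630.normalAlong_of_monic hnf.2 hm
      hni₁ := S36.H630.normalAlong_of_monic hni.1 hm
      hni₂ := S36.H630.normalAlong_of_monic hni.2 hm
      hcusp := by
        intro 𝔫 hmax hw𝔫 hx𝔫 hpass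
        exact S36.H153.hnode_level_q w hSet V W hV hW 𝔫 hmax.isPrime hpass.1 hpass.2 _ rfl hx𝔫 }

end Level

end Fermat.Agent.S59.LoSqC.H193

end
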